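/-
T4E-L (helper5): **ALL-OR-ONE** (the generalisation of the trichotomy (T5) of `Lib/T4/Local/Trich`
to a labelled family `Vw 0, …, Vw e` of vertical valuation rings), logical form.

If any two DISTINCT members of the family passing through `𝔫` force the whole family through `𝔫`,
then either any two vertical valuation rings through `𝔫` coincide, or the vertical valuation rings
through `𝔫` are exactly `Vw 0, …, Vw e`.  (The geometric input — two distinct verticals through a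
point force all of them — is `T4PresOver.through_of_glued'` applied along `α` or `β`, whichever
separates the two labels: `α` identifies only `{e - 1, e}`, `β` only `{0, 1}`.)

* `T4Pres.t4e_all_or_one` : the shape of the first two clauses of `T4eCChart.hcase`;
* `T4Pres.t4e_hcase_of` : the full `hcase` from ALL-OR-ONE and a provider of the relations at the
  points through which all the branches pass.
-/
import Fermat.Agent.Lib.T4E.Local.Chart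

set_option autoImplicit false
set_option linter.style.haveILetI false

namespace Fermat.Agent.T4

variable {F : Type*} [Field F]

namespace T4Pres

variable (P : T4Pres F)

/-- **ALL-OR-ONE**, logical form -/
theorem t4e_all_or_one {q : F} {e : ℕ} {Vw : ℕ → ValuationSubring F} (𝔫 : Ideal P.B)
    (hvert : ∀ V ∈ P.vert q, ∃ w, w ≤ e ∧ V = Vw w)
    (hmem : ∀ w, w ≤ e → Vw w ∈ P.vert q)
    (H : ∀ i j, i ≤ e → j ≤ e → i ≠ j → Vw i ∈ P.through 𝔫 → Vw j ∈ P.through 𝔫 →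
      ∀ w, w ≤ e → Vw w ∈ P.through 𝔫) :
    (∀ V ∈ P.through 𝔫, V ∈ P.vert q → ∀ W ∈ P.through 𝔫, W ∈ P.vert q → V = W) ∨
      ((∀ V ∈ P.through 𝔫, V ∈ P.vert q → ∃ w, w ≤ e ∧ V = Vw w) ∧
        (∀ w, w ≤ e → Vw w ∈ P.through 𝔫 ∧ Vw w ∈ P.vert q)) := by
  by_cases hall : ∀ w, w ≤ e → Vw w ∈ P.through 𝔫
  · exact Or.inr ⟨fun V _ hV => hvert V hV, fun w hw => ⟨hall w hw, hmem w hw⟩⟩
  · left
    intro V hV hVq W hW hWq
    obtain ⟨i, hi, rfl⟩ := hvert V hVq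
    obtain ⟨j, hj, rfl⟩ := hvert W hWq
    by_cases hij : i = j
    · rw [hij]
    · exact absurd (H i j hi hj hij hV hW) hall

/-- the full `hcase` of `T4eCChart` from ALL-OR-ONE and the relations at the points through which
all the branches pass -/
theorem t4e_hcase_of {q : F} (hq : q ∈ P.B) {m : ℕ} {z : F} {qq e : ℕ}
    {Vw : ℕ → ValuationSubring F} (A B : ℕ → (P.B)ˣ)
    (hvert : ∀ V ∈ P.vert q, ∃ w, w ≤ e ∧ V = Vw w)
    (hmem : ∀ w, w ≤ e → Vw w ∈ P.vert q)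
    (H : ∀ 𝔫 : Ideal P.B, 𝔫.IsMaximal → (⟨q, hq⟩ : P.B) ∈ 𝔫 →
      ∀ i j, i ≤ e → j ≤ e → i ≠ j → Vw i ∈ P.through 𝔫 → Vw j ∈ P.through 𝔫 →
        ∀ w, w ≤ e → Vw w ∈ P.through 𝔫)
    (hrel : ∀ 𝔫 : Ideal P.B, 𝔫.IsMaximal → (⟨q, hq⟩ : P.B) ∈ 𝔫 →
      (∀ w, w ≤ e → Vw w ∈ P.through 𝔫) → ∀ s : F,
      (∀ V ∈ P.through 𝔫, V.valuation (s ^ m * z) = 1) →
      ∀ κ : ℕ → P.B ⧸ 𝔫, (∀ w, w ≤ e → P.BranchVal 𝔫 (Vw w) s (κ w)) →
        (∀ w, w ≤ e → κ w ≠ 0) →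
        (∀ j, j + 2 ≤ e → κ j ^ qq * Ideal.Quotient.mk 𝔫 (A j : P.B) =
          κ e * κ (e - 1) ^ (qq - 1) * Ideal.Quotient.mk 𝔫 (A (e - 1) : P.B)) ∧
        (∀ j, 1 ≤ j → j + 1 ≤ e → κ (j + 1) ^ qq * Ideal.Quotient.mk 𝔫 (B j : P.B) =
          κ 0 * κ 1 ^ (qq - 1) * Ideal.Quotient.mk 𝔫 (B 0 : P.B))) :
    ∀ 𝔫 : Ideal P.B, 𝔫.IsMaximal → (⟨q, hq⟩ : P.B) ∈ 𝔫 → ∀ s : F,
      (∀ V ∈ P.through 𝔫, V.valuation (s ^ m * z) = 1) →
      (∀ V ∈ P.through 𝔫, V ∈ P.vert q → ∀ W ∈ P.through 𝔫, W ∈ P.vert q → V = W) ∨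
      ((∀ V ∈ P.through 𝔫, V ∈ P.vert q → ∃ w, w ≤ e ∧ V = Vw w) ∧
        (∀ w, w ≤ e → Vw w ∈ P.through 𝔫 ∧ Vw w ∈ P.vert q) ∧
        ∀ κ : ℕ → P.B ⧸ 𝔫, (∀ w, w ≤ e → P.BranchVal 𝔫 (Vw w) s (κ w)) →
          (∀ w, w ≤ e → κ w ≠ 0) →
          (∀ j, j + 2 ≤ e → κ j ^ qq * Ideal.Quotient.mk 𝔫 (A j : P.B) =
            κ e * κ (e - 1) ^ (qq - 1) * Ideal.Quotient.mk 𝔫 (A (e - 1) : P.B)) ∧
          (∀ j, 1 ≤ j → j + 1 ≤ e → κ (j + 1) ^ qq * Ideal.Quotient.mk 𝔫 (B j : P.B) =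
            κ 0 * κ 1 ^ (qq - 1) * Ideal.Quotient.mk 𝔫 (B 0 : P.B))) := by
  intro 𝔫 h𝔫 hq𝔫 s hs
  rcases P.t4e_all_or_one 𝔫 hvert hmem (H 𝔫 h𝔫 hq𝔫) with hone | ⟨hall, hthr⟩
  · exact Or.inl hone
  · exact Or.inr ⟨hall, hthr, hrel 𝔫 h𝔫 hq𝔫 (fun w hw => (hthr w hw).1) s hs⟩

end T4Pres

end Fermat.Agent.T4
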