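/-
T4E-L (helper5): **ALL-OR-ONE by induction on the level** (abstract, T4-L language).

Two consecutive levels: presentations `P1` (level `i`, verticals `V1 0, …, V1 i`) and `P`
(level `i + 1`, verticals `V 0, …, V (i + 1)`), two algebra structures `α`, `β : F₁ → F` with
`T4PresOver P1 P`; restrictions of the verticals `α : w ↦ min w i`, `β : w ↦ w - 1`.

* `T4Pres.T4eLocEq 𝔫 V` : a local equation of the branch `V` at `𝔫` (a non-zero non-unit of `B_𝔫`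
  which is a unit at every other valuation ring through `𝔫`);
* `T4eLab P q i V` : the vertical valuation rings of `P` are exactly `V 0, …, V i`;
* `T4eStep P1 P q1 q i V1 V φ` : one embedding with label map `φ`;
* `T4eStep.locEq_map` : local equations propagate to the unique valuation ring upstairs;
* `T4eStep.all_step` : two verticals upstairs through `𝔫` with DIFFERENT labels downstairs force
  all verticals through `𝔫`, `𝔫` is the only point over `𝔫₁`, and `𝔫₁` is an all-point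
  (`through_of_glued'`);
* `T4eAllAt P i V` : ALL-OR-ONE at level `i` together with local equations of the top vertical
  `V i` and of the bottom vertical `V 0` at the all-points;
* **`t4e_allAt_succ`** : `T4eAllAt` at level `i ≥ 1` gives `T4eAllAt` at level `i + 1`;
* `T4eStep.relation` : `norm_relation` at an all-point in labelled form;
* **`t4e_rel_alpha`, `t4e_rel_beta`** : the relations (α), (β) of `T4eCChart.hcase` at the all-points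
  of level `i + 1` from the two norm equations `N_α z = c f ^ m`, `N_β z = c' f' ^ m` with
  `f ≡ A1 j` (resp. `f' ≡ B1 j`) on `V1 j`;
* **`t4e_hcase_of_tower`** : the field `hcase` of `T4eCChart` at level `e = i + 1`.
-/
import Fermat.Agent.Lib.T4.Local.Trich
import Fermat.Agent.Lib.T4.Local.NormRel
import Fermat.Agent.Lib.T4.Local.SmoothOver
import Fermat.Agent.Lib.T4E.Local.AllOrOne

set_option autoImplicit false
set_option linter.style.haveILetI false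
set_option linter.unusedSectionVars false
set_option linter.unusedVariables false

namespace Fermat.Agent.T4

namespace T4Pres

variable {F : Type*} [Field F] (P : T4Pres F)

/-- a local equation of the branch `V` at `𝔫`: a non-zero non-unit of `B_𝔫` which is a unit at every
other valuation ring through `𝔫` -/
def T4eLocEq (𝔫 : Ideal P.B) (V : ValuationSubring F) : Prop :=
  ∃ (b : F) (hb : b ∈ P.loc 𝔫), b ≠ 0 ∧ ¬ IsUnit (⟨b, hb⟩ : ↥(P.loc 𝔫)) ∧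
    ∀ V' ∈ P.through 𝔫, V' ≠ V → V'.valuation b = 1

end T4Pres

/-- the vertical valuation rings of `P` are exactly `V 0, …, V i` (pairwise distinct) -/
structure T4eLab {F : Type*} [Field F] (P : T4Pres F) (q : F) (i : ℕ)
    (V : ℕ → ValuationSubring F) : Prop where
  hq : q ∈ P.B
  vert : ∀ W ∈ P.vert q, ∃ w, w ≤ i ∧ W = V w
  mem : ∀ w, w ≤ i → V w ∈ P.vert q
  inj : ∀ a b, a ≤ i → b ≤ i → V a = V b → a = b

/-- ALL-OR-ONE at level `i`, with local equations of the top and of the bottom vertical at the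
all-points -/
structure T4eAllAt {F : Type*} [Field F] (P : T4Pres F) (i : ℕ)
    (V : ℕ → ValuationSubring F) : Prop where
  all : ∀ 𝔫 : Ideal P.B, 𝔫.IsMaximal → ∀ a b, a ≤ i → b ≤ i → a ≠ b →
    V a ∈ P.through 𝔫 → V b ∈ P.through 𝔫 → ∀ w, w ≤ i → V w ∈ P.through 𝔫
  top : ∀ 𝔫 : Ideal P.B, 𝔫.IsMaximal → (∀ w, w ≤ i → V w ∈ P.through 𝔫) → P.T4eLocEq 𝔫 (V i)
  bot : ∀ 𝔫 : Ideal P.B, 𝔫.IsMaximal → (∀ w, w ≤ i → V w ∈ P.through 𝔫) → P.T4eLocEq 𝔫 (V 0)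

section OneMap

variable {F1 F : Type*} [Field F1] [Field F] [Algebra F1 F]

/-- one embedding `F₁ → F` between consecutive levels, with the label map `φ` of the verticals -/
structure T4eStep (P1 : T4Pres F1) (P : T4Pres F) (q1 : F1) (q : F) (i : ℕ)
    (V1 : ℕ → ValuationSubring F1) (V : ℕ → ValuationSubring F) (φ : ℕ → ℕ) : Prop where
  pres : T4PresOver P1 P
  hq : algebraMap F1 F q1 = q
  comap_vals : ∀ W ∈ P.vals, W.comap (algebraMap F1 F) ∈ P1.vals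
  comap : ∀ w, w ≤ i + 1 → (V w).comap (algebraMap F1 F) = V1 (φ w)
  φ_le : ∀ w, w ≤ i + 1 → φ w ≤ i
  φ_surj : ∀ w', w' ≤ i → ∃ w, w ≤ i + 1 ∧ φ w = w'

namespace T4eStep

variable {P1 : T4Pres F1} {P : T4Pres F} {q1 : F1} {q : F} {i : ℕ}
  {V1 : ℕ → ValuationSubring F1} {V : ℕ → ValuationSubring F} {φ : ℕ → ℕ}
  (S : T4eStep P1 P q1 q i V1 V φ)

include S in
/-- a valuation ring of `P` over a vertical of `P1` is a vertical with the right label -/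
theorem exists_label (L1 : T4eLab P1 q1 i V1) (L : T4eLab P q (i + 1) V)
    {W : ValuationSubring F} (hW : W ∈ P.vals) {w' : ℕ} (hw' : w' ≤ i)
    (h : W.comap (algebraMap F1 F) = V1 w') : ∃ w, w ≤ i + 1 ∧ W = V w ∧ φ w = w' := by
  have h1 : (V1 w').valuation q1 < 1 := (L1.mem w' hw').2
  rw [← h, t4l_valuation_comap_lt_one, S.hq] at h1
  obtain ⟨w, hw, rfl⟩ := L.vert W ⟨hW, h1⟩
  refine ⟨w, hw, rfl, ?_⟩
  rw [S.comap w hw] at h
  exact L1.inj _ _ (S.φ_le w hw) hw' h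

include S in
/-- the restrictions of the verticals through `𝔫` pass through `𝔫₁` -/
theorem lower_through {𝔫 : Ideal P.B} {w : ℕ} (hw : w ≤ i + 1) (hV : V w ∈ P.through 𝔫) :
    V1 (φ w) ∈ P1.through (S.pres.under 𝔫) := by
  have := S.pres.comap_mem_through hV (S.comap_vals _ hV.1)
  rwa [S.comap w hw] at this

include S in
/-- below an all-point lies an all-point -/
theorem lower_all {𝔫 : Ideal P.B} (hall : ∀ w, w ≤ i + 1 → V w ∈ P.through 𝔫) :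
    ∀ w', w' ≤ i → V1 w' ∈ P1.through (S.pres.under 𝔫) := by
  intro w' hw'
  obtain ⟨w, hw, rfl⟩ := S.φ_surj w' hw'
  exact S.lower_through hw (hall w hw)

include S in
/-- **local equations propagate** to the unique valuation ring upstairs -/
theorem locEq_map (L1 : T4eLab P1 q1 i V1) (L : T4eLab P q (i + 1) V)
    (𝔫 : Ideal P.B) [h𝔫 : 𝔫.IsMaximal] {w₁ wc : ℕ} (hw₁ : w₁ ≤ i)
    (hfib : ∀ w, w ≤ i + 1 → φ w = w₁ → w = wc)
    (hloc : P1.T4eLocEq (S.pres.under 𝔫) (V1 w₁)) : P.T4eLocEq 𝔫 (V wc) := by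
  obtain ⟨b', hb', hb0, hnu, hu⟩ := hloc
  refine ⟨algebraMap F1 F b', S.pres.map_mem_loc 𝔫 hb', ?_, ?_, ?_⟩
  · rw [Ne, map_eq_zero]; exact hb0
  · have := S.pres.not_isUnit_locMap 𝔫 hnu
    exact this
  · intro V' hV' hne
    rw [← t4l_valuation_comap_eq_one]
    refine hu _ (S.pres.comap_mem_through hV' (S.comap_vals _ hV'.1)) ?_
    intro heq
    obtain ⟨w, hw, rfl, hφ⟩ := S.exists_label L1 L hV'.1 hw₁ heq
    exact hne (by rw [hfib w hw hφ])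

include S in
/-- **the step of ALL-OR-ONE along one embedding**: two verticals through `𝔫` with different labels
downstairs force all verticals through `𝔫`; `𝔫` is the only point over `𝔫₁`; `𝔫₁` is an all-point -/
theorem all_step (L1 : T4eLab P1 q1 i V1) (L : T4eLab P q (i + 1) V)
    (𝔫 : Ideal P.B) [h𝔫 : 𝔫.IsMaximal]
    (hall1 : ∀ a b, a ≤ i → b ≤ i → a ≠ b → V1 a ∈ P1.through (S.pres.under 𝔫) →
      V1 b ∈ P1.through (S.pres.under 𝔫) → ∀ w, w ≤ i → V1 w ∈ P1.through (S.pres.under 𝔫))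
    {w₁ wc : ℕ} (hw₁ : w₁ ≤ i) (hfib : ∀ w, w ≤ i + 1 → φ w = w₁ → w = wc)
    (hloc : (∀ w, w ≤ i → V1 w ∈ P1.through (S.pres.under 𝔫)) →
      P1.T4eLocEq (S.pres.under 𝔫) (V1 w₁))
    {Q : ℕ} (hQ : Q ≠ 0)
    (hpi : ∀ x ∈ P.B, ∃ a ∈ P1.B, (V wc).valuation (x ^ Q - algebraMap F1 F a) < 1)
    {a b : ℕ} (ha : a ≤ i + 1) (hb : b ≤ i + 1) (hab : φ a ≠ φ b)
    (hVa : V a ∈ P.through 𝔫) (hVb : V b ∈ P.through 𝔫) :
    (∀ w, w ≤ i + 1 → V w ∈ P.through 𝔫) ∧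
      (∀ 𝔫' : Ideal P.B, 𝔫'.IsMaximal → 𝔫'.comap S.pres.incl = S.pres.under 𝔫 → 𝔫' = 𝔫) ∧
      ∀ w, w ≤ i → V1 w ∈ P1.through (S.pres.under 𝔫) := by
  have hlow : ∀ w, w ≤ i → V1 w ∈ P1.through (S.pres.under 𝔫) :=
    hall1 (φ a) (φ b) (S.φ_le a ha) (S.φ_le b hb) hab (S.lower_through ha hVa)
      (S.lower_through hb hVb)
  obtain ⟨b', hb', hb0, hnu, hu⟩ := hloc hlow
  have honly : ∀ W ∈ P.vals, W.comap (algebraMap F1 F) = V1 w₁ → W = V wc := by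
    intro W hW heq
    obtain ⟨w, hw, rfl, hφ⟩ := S.exists_label L1 L hW hw₁ heq
    rw [hfib w hw hφ]
  obtain ⟨-, huniq, hup⟩ := S.pres.through_of_glued' 𝔫 S.comap_vals honly hb' hnu hb0 hu hQ hpi
  refine ⟨fun w hw => hup _ (L.mem w hw).1 ?_, huniq, hlow⟩
  rw [S.comap w hw]
  exact hlow _ (S.φ_le w hw)

include S in
/-- the restriction of a vertical lies under it (hypothesis `hover` of `norm_relation`) -/
theorem hover {w : ℕ} (hw : w ≤ i + 1) (x : F1) (hx : (V1 (φ w)).valuation x < 1) :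
    (V w).valuation (algebraMap F1 F x) < 1 := by
  rw [← S.comap w hw, t4l_valuation_comap_lt_one] at hx
  exact hx

include S in
/-- **the norm relation at an all-point, labelled form**: split side `V1 ws` with the two verticals
`V wa`, `V wb` over it, Frobenius side `V wc` over `V1 (φ wc)` -/
theorem relation (𝔫 : Ideal P.B) [h𝔫 : 𝔫.IsMaximal]
    (huniq : ∀ 𝔫' : Ideal P.B, 𝔫'.IsMaximal → 𝔫'.comap S.pres.incl = S.pres.under 𝔫 → 𝔫' = 𝔫)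
    (hall : ∀ w, w ≤ i + 1 → V w ∈ P.through 𝔫)
    {m : ℕ} (hm : m ≠ 0) {z s : F} (hs : ∀ W ∈ P.through 𝔫, W.valuation (s ^ m * z) = 1)
    {c f : F1} (hNz : Algebra.norm F1 z = c * f ^ m)
    (hc : ∀ W1 ∈ P1.through (S.pres.under 𝔫), W1.valuation c = 1)
    {ws wa wb es : ℕ} (hwa : wa ≤ i + 1) (hwb : wb ≤ i + 1) (hφa : φ wa = ws) (hφb : φ wb = ws)
    (hsplit : ∀ (y : F) (a a' : F1), a ∈ V1 ws → a' ∈ V1 ws →
      (V wa).valuation y = 1 → (V wb).valuation y = 1 →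
      (V wa).valuation (y - algebraMap F1 F a) < 1 →
      (V wb).valuation (y - algebraMap F1 F a') < 1 →
      (V1 ws).valuation (Algebra.norm F1 y - a * a' ^ es) < 1)
    (hIDa : ∀ b ∈ P.B, ∃ b' ∈ P1.B, (V wa).valuation (b - algebraMap F1 F b') < 1)
    (hIDb : ∀ b ∈ P.B, ∃ b' ∈ P1.B, (V wb).valuation (b - algebraMap F1 F b') < 1)
    {φs : P1.B} (hφs : φs ∉ S.pres.under 𝔫) (hfφs : (V1 ws).valuation (f - (φs : F1)) < 1)
    {wc Q : ℕ} (hwc : wc ≤ i + 1)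
    (hfrob : ∀ y : F, (V wc).valuation y = 1 →
      (V wc).valuation (algebraMap F1 F (Algebra.norm F1 y) - y ^ Q) < 1)
    {φc : P1.B} (hφc : φc ∉ S.pres.under 𝔫) (hfφc : (V1 (φ wc)).valuation (f - (φc : F1)) < 1)
    {κ : ℕ → P.B ⧸ 𝔫} (hκ : ∀ w, w ≤ i + 1 → P.BranchVal 𝔫 (V w) s (κ w))
    (hκ0 : ∀ w, w ≤ i + 1 → κ w ≠ 0) :
    κ wa * κ wb ^ es * Ideal.Quotient.mk 𝔫 (S.pres.incl φs) =
      κ wc ^ Q * Ideal.Quotient.mk 𝔫 (S.pres.incl φc) := by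
  have hV1s : V1 ws ∈ P1.through (S.pres.under 𝔫) := by
    have := S.lower_through hwa (hall wa hwa)
    rwa [hφa] at this
  refine S.pres.norm_relation 𝔫 huniq hm hs hNz hc hV1s (hall wa hwa) (hall wb hwb)
    (fun y a a' ha ha' => hsplit y a a' (ha _ hV1s) (ha' _ hV1s))
    (fun x hx => S.pres.exists_loc_congr 𝔫 (hall wa hwa) hIDa hx)
    (fun x hx => S.pres.exists_loc_congr 𝔫 (hall wb hwb) hIDb hx) hφs hfφs
    (S.lower_through hwc (hall wc hwc)) (hall wc hwc) (S.hover hwc) hfrob hφc hfφc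
    (hκ wa hwa) (hκ wb hwb) (hκ wc hwc) (hκ0 wa hwa) (hκ0 wb hwb) (hκ0 wc hwc)

end T4eStep

end OneMap

section TwoMaps

variable {F1 F : Type*} [Field F1] [Field F]

/-- **ALL-OR-ONE, induction step on the level** (`i ≥ 1`): two embeddings `α` (labels
`w ↦ min w i`) and `β` (labels `w ↦ w - 1`), the bottom vertical `V 0` purely inseparable of
exponent `Qa` over `V1 0` along `α`, the top vertical `V (i + 1)` purely inseparable of exponent `Qb`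
over `V1 i` along `β` -/
theorem t4e_allAt_succ (α β : F1 →+* F) {P1 : T4Pres F1} {P : T4Pres F} {q1 : F1} {q : F}
    {i : ℕ} (hi : 1 ≤ i) {V1 : ℕ → ValuationSubring F1} {V : ℕ → ValuationSubring F}
    (L1 : T4eLab P1 q1 i V1) (L : T4eLab P q (i + 1) V)
    (SA : @T4eStep F1 F _ _ α.toAlgebra P1 P q1 q i V1 V (fun w => min w i))
    (SB : @T4eStep F1 F _ _ β.toAlgebra P1 P q1 q i V1 V (fun w => w - 1))
    {Qa Qb : ℕ} (hQa : Qa ≠ 0) (hQb : Qb ≠ 0)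
    (hpiA : ∀ x ∈ P.B, ∃ a ∈ P1.B, (V 0).valuation (x ^ Qa - α a) < 1)
    (hpiB : ∀ x ∈ P.B, ∃ a ∈ P1.B, (V (i + 1)).valuation (x ^ Qb - β a) < 1)
    (H1 : T4eAllAt P1 i V1) : T4eAllAt P (i + 1) V := by
  have hfibA : ∀ w, w ≤ i + 1 → min w i = 0 → w = 0 := by intro w _ h; omega
  have hfibB : ∀ w, w ≤ i + 1 → w - 1 = i → w = i + 1 := by intro w _ h; omega
  refine ⟨?_, ?_, ?_⟩
  · intro 𝔫 h𝔫 a b ha hb hab hVa hVb
    haveI := h𝔫
    by_cases hα : min a i = min b i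
    · -- `{a, b} = {i, i + 1}`: use `β`
      have hβ : a - 1 ≠ b - 1 := by omega
      letI : Algebra F1 F := β.toAlgebra
      exact (SB.all_step L1 L 𝔫 (H1.all _ (SB.pres.under_isMaximal 𝔫)) le_rfl hfibB
        (H1.top _ (SB.pres.under_isMaximal 𝔫)) hQb hpiB ha hb hβ hVa hVb).1
    · letI : Algebra F1 F := α.toAlgebra
      exact (SA.all_step L1 L 𝔫 (H1.all _ (SA.pres.under_isMaximal 𝔫)) (Nat.zero_le i) hfibA
        (H1.bot _ (SA.pres.under_isMaximal 𝔫)) hQa hpiA ha hb hα hVa hVb).1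
  · intro 𝔫 h𝔫 hall
    haveI := h𝔫
    letI : Algebra F1 F := β.toAlgebra
    exact SB.locEq_map L1 L 𝔫 le_rfl hfibB
      (H1.top _ (SB.pres.under_isMaximal 𝔫) (SB.lower_all hall))
  · intro 𝔫 h𝔫 hall
    haveI := h𝔫
    letI : Algebra F1 F := α.toAlgebra
    exact SA.locEq_map L1 L 𝔫 (Nat.zero_le i) hfibA
      (H1.bot _ (SA.pres.under_isMaximal 𝔫) (SA.lower_all hall))

/-- **the relations (α) at an all-point of level `i + 1`** (`i ≥ 1`): `f ≡ A1 j` on `V1 j`,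
`A j = α (A1 j)`; split side `V1 i` (verticals `V (i + 1)`, `V i`), Frobenius sides `V j`,
`j + 1 ≤ i` -/
theorem t4e_rel_alpha (α : F1 →+* F) {P1 : T4Pres F1} {P : T4Pres F} {q1 : F1} {q : F}
    {i : ℕ} (hi : 1 ≤ i) {V1 : ℕ → ValuationSubring F1} {V : ℕ → ValuationSubring F}
    (L1 : T4eLab P1 q1 i V1) (L : T4eLab P q (i + 1) V)
    (SA : @T4eStep F1 F _ _ α.toAlgebra P1 P q1 q i V1 V (fun w => min w i))
    (H1 : T4eAllAt P1 i V1) {Qa : ℕ} (hQa : Qa ≠ 0)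
    (hpiA : ∀ x ∈ P.B, ∃ a ∈ P1.B, (V 0).valuation (x ^ Qa - α a) < 1)
    (𝔫 : Ideal P.B) (h𝔫 : 𝔫.IsMaximal) (hall : ∀ w, w ≤ i + 1 → V w ∈ P.through 𝔫)
    {m : ℕ} (hm : m ≠ 0) {z s : F} (hs : ∀ W ∈ P.through 𝔫, W.valuation (s ^ m * z) = 1)
    {c f : F1} (hNz : @Algebra.norm F1 F _ _ α.toAlgebra z = c * f ^ m)
    (hc : ∀ W1 ∈ P1.vals, W1.valuation c = 1) {qq : ℕ}
    (hsplit : ∀ (y : F) (a a' : F1), a ∈ V1 i → a' ∈ V1 i →
      (V (i + 1)).valuation y = 1 → (V i).valuation y = 1 →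
      (V (i + 1)).valuation (y - α a) < 1 → (V i).valuation (y - α a') < 1 →
      (V1 i).valuation (@Algebra.norm F1 F _ _ α.toAlgebra y - a * a' ^ (qq - 1)) < 1)
    (hIDtop : ∀ b ∈ P.B, ∃ b' ∈ P1.B, (V (i + 1)).valuation (b - α b') < 1)
    (hIDsub : ∀ b ∈ P.B, ∃ b' ∈ P1.B, (V i).valuation (b - α b') < 1)
    (hfrob : ∀ j, j + 1 ≤ i → ∀ y : F, (V j).valuation y = 1 →
      (V j).valuation (α (@Algebra.norm F1 F _ _ α.toAlgebra y) - y ^ qq) < 1)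
    (A1 : ℕ → P1.B) (A : ℕ → (P.B)ˣ) (hA : ∀ j, j ≤ i → ((A j : P.B) : F) = α (A1 j : F1))
    (hfA : ∀ j, j ≤ i → (V1 j).valuation (f - (A1 j : F1)) < 1)
    {κ : ℕ → P.B ⧸ 𝔫} (hκ : ∀ w, w ≤ i + 1 → P.BranchVal 𝔫 (V w) s (κ w))
    (hκ0 : ∀ w, w ≤ i + 1 → κ w ≠ 0) :
    ∀ j, j + 2 ≤ i + 1 → κ j ^ qq * Ideal.Quotient.mk 𝔫 (A j : P.B) =
      κ (i + 1) * κ (i + 1 - 1) ^ (qq - 1) * Ideal.Quotient.mk 𝔫 (A (i + 1 - 1) : P.B) := by
  haveI := h𝔫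
  letI : Algebra F1 F := α.toAlgebra
  have hfibA : ∀ w, w ≤ i + 1 → min w i = 0 → w = 0 := by intro w _ h; omega
  have h0i : min 0 i ≠ min (i + 1) i := by omega
  obtain ⟨-, huniq, -⟩ := SA.all_step L1 L 𝔫 (H1.all _ (SA.pres.under_isMaximal 𝔫))
    (Nat.zero_le i) hfibA (H1.bot _ (SA.pres.under_isMaximal 𝔫)) hQa hpiA (Nat.zero_le _) le_rfl
    h0i (hall 0 (Nat.zero_le _)) (hall (i + 1) le_rfl)
  -- the constants are `incl (A1 j)`
  have hAincl : ∀ j, j ≤ i → (A j : P.B) = SA.pres.incl (A1 j) := fun j hj =>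
    Subtype.ext (hA j hj)
  have hA1 : ∀ j, j ≤ i → A1 j ∉ SA.pres.under 𝔫 := by
    intro j hj hmem
    have h1 : SA.pres.incl (A1 j) ∈ 𝔫 := hmem
    rw [← hAincl j hj] at h1
    exact h𝔫.ne_top (Ideal.eq_top_of_isUnit_mem _ h1 (A j).isUnit)
  intro j hj
  have hji : j + 1 ≤ i := by omega
  have hmin : min j i = j := by omega
  have key := SA.relation 𝔫 huniq hall hm hs hNz
    (fun W1 hW1 => hc W1 hW1.1) (ws := i) (wa := i + 1) (wb := i) (es := qq - 1) le_rfl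
    (Nat.le_succ i) (by show min (i + 1) i = i; omega) (by show min i i = i; omega)
    hsplit hIDtop hIDsub (hA1 i le_rfl) (hfA i le_rfl) (wc := j) (Q := qq) (by omega)
    (hfrob j hji) (hA1 j (by omega))
    (by show (V1 (min j i)).valuation _ < 1; rw [hmin]; exact hfA j (by omega)) hκ hκ0
  rw [Nat.add_sub_cancel, hAincl j (by omega), hAincl i le_rfl]
  exact key.symm

/-- **the relations (β) at an all-point of level `i + 1`** (`i ≥ 1`): `f ≡ B1 j` on `V1 j`,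
`B j = β (B1 j)`; split side `V1 0` (verticals `V 0`, `V 1`), Frobenius sides `V (j + 1)`,
`1 ≤ j ≤ i` -/
theorem t4e_rel_beta (β : F1 →+* F) {P1 : T4Pres F1} {P : T4Pres F} {q1 : F1} {q : F}
    {i : ℕ} (hi : 1 ≤ i) {V1 : ℕ → ValuationSubring F1} {V : ℕ → ValuationSubring F}
    (L1 : T4eLab P1 q1 i V1) (L : T4eLab P q (i + 1) V)
    (SB : @T4eStep F1 F _ _ β.toAlgebra P1 P q1 q i V1 V (fun w => w - 1))
    (H1 : T4eAllAt P1 i V1) {Qb : ℕ} (hQb : Qb ≠ 0)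
    (hpiB : ∀ x ∈ P.B, ∃ a ∈ P1.B, (V (i + 1)).valuation (x ^ Qb - β a) < 1)
    (𝔫 : Ideal P.B) (h𝔫 : 𝔫.IsMaximal) (hall : ∀ w, w ≤ i + 1 → V w ∈ P.through 𝔫)
    {m : ℕ} (hm : m ≠ 0) {z s : F} (hs : ∀ W ∈ P.through 𝔫, W.valuation (s ^ m * z) = 1)
    {c f : F1} (hNz : @Algebra.norm F1 F _ _ β.toAlgebra z = c * f ^ m)
    (hc : ∀ W1 ∈ P1.vals, W1.valuation c = 1) {qq : ℕ}
    (hsplit : ∀ (y : F) (a a' : F1), a ∈ V1 0 → a' ∈ V1 0 →
      (V 0).valuation y = 1 → (V 1).valuation y = 1 →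
      (V 0).valuation (y - β a) < 1 → (V 1).valuation (y - β a') < 1 →
      (V1 0).valuation (@Algebra.norm F1 F _ _ β.toAlgebra y - a * a' ^ (qq - 1)) < 1)
    (hIDbot : ∀ b ∈ P.B, ∃ b' ∈ P1.B, (V 0).valuation (b - β b') < 1)
    (hIDone : ∀ b ∈ P.B, ∃ b' ∈ P1.B, (V 1).valuation (b - β b') < 1)
    (hfrob : ∀ j, 1 ≤ j → j ≤ i → ∀ y : F, (V (j + 1)).valuation y = 1 →
      (V (j + 1)).valuation (β (@Algebra.norm F1 F _ _ β.toAlgebra y) - y ^ qq) < 1)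
    (B1 : ℕ → P1.B) (B : ℕ → (P.B)ˣ) (hB : ∀ j, j ≤ i → ((B j : P.B) : F) = β (B1 j : F1))
    (hfB : ∀ j, j ≤ i → (V1 j).valuation (f - (B1 j : F1)) < 1)
    {κ : ℕ → P.B ⧸ 𝔫} (hκ : ∀ w, w ≤ i + 1 → P.BranchVal 𝔫 (V w) s (κ w))
    (hκ0 : ∀ w, w ≤ i + 1 → κ w ≠ 0) :
    ∀ j, 1 ≤ j → j + 1 ≤ i + 1 → κ (j + 1) ^ qq * Ideal.Quotient.mk 𝔫 (B j : P.B) =
      κ 0 * κ 1 ^ (qq - 1) * Ideal.Quotient.mk 𝔫 (B 0 : P.B) := by
  haveI := h𝔫
  letI : Algebra F1 F := β.toAlgebra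
  have hfibB : ∀ w, w ≤ i + 1 → w - 1 = i → w = i + 1 := by intro w _ h; omega
  have h0i : 0 - 1 ≠ (i + 1) - 1 := by omega
  obtain ⟨-, huniq, -⟩ := SB.all_step L1 L 𝔫 (H1.all _ (SB.pres.under_isMaximal 𝔫))
    le_rfl hfibB (H1.top _ (SB.pres.under_isMaximal 𝔫)) hQb hpiB (Nat.zero_le _) le_rfl
    h0i (hall 0 (Nat.zero_le _)) (hall (i + 1) le_rfl)
  have hBincl : ∀ j, j ≤ i → (B j : P.B) = SB.pres.incl (B1 j) := fun j hj =>
    Subtype.ext (hB j hj)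
  have hB1 : ∀ j, j ≤ i → B1 j ∉ SB.pres.under 𝔫 := by
    intro j hj hmem
    have h1 : SB.pres.incl (B1 j) ∈ 𝔫 := hmem
    rw [← hBincl j hj] at h1
    exact h𝔫.ne_top (Ideal.eq_top_of_isUnit_mem _ h1 (B j).isUnit)
  intro j hj1 hj
  have hji : j ≤ i := by omega
  have key := SB.relation 𝔫 huniq hall hm hs hNz
    (fun W1 hW1 => hc W1 hW1.1) (ws := 0) (wa := 0) (wb := 1) (es := qq - 1) (Nat.zero_le _)
    (by omega) (by show 0 - 1 = 0; omega) (by show 1 - 1 = 0; omega)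
    hsplit hIDbot hIDone (hB1 0 (Nat.zero_le i)) (hfB 0 (Nat.zero_le i)) (wc := j + 1) (Q := qq)
    (by omega) (hfrob j hj1 hji) (hB1 j hji)
    (by show (V1 (j + 1 - 1)).valuation _ < 1; rw [Nat.add_sub_cancel]; exact hfB j hji) hκ hκ0
  rw [hBincl j hji, hBincl 0 (Nat.zero_le i)]
  exact key.symm

/-- **the field `hcase` of `T4eCChart` at level `e = i + 1`** (`i ≥ 1`), from ALL-OR-ONE at level
`i`, the two embeddings and the two norm equations -/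
theorem t4e_hcase_of_tower (α β : F1 →+* F) {P1 : T4Pres F1} {P : T4Pres F} {q1 : F1} {q : F}
    {i : ℕ} (hi : 1 ≤ i) {V1 : ℕ → ValuationSubring F1} {V : ℕ → ValuationSubring F}
    (L1 : T4eLab P1 q1 i V1) (L : T4eLab P q (i + 1) V)
    (SA : @T4eStep F1 F _ _ α.toAlgebra P1 P q1 q i V1 V (fun w => min w i))
    (SB : @T4eStep F1 F _ _ β.toAlgebra P1 P q1 q i V1 V (fun w => w - 1))
    (H1 : T4eAllAt P1 i V1) {Qa Qb : ℕ} (hQa : Qa ≠ 0) (hQb : Qb ≠ 0)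
    (hpiA : ∀ x ∈ P.B, ∃ a ∈ P1.B, (V 0).valuation (x ^ Qa - α a) < 1)
    (hpiB : ∀ x ∈ P.B, ∃ a ∈ P1.B, (V (i + 1)).valuation (x ^ Qb - β a) < 1)
    {m : ℕ} (hm : m ≠ 0) {z : F} {qq : ℕ}
    -- the `α`-side
    {cA fA : F1} (hNA : @Algebra.norm F1 F _ _ α.toAlgebra z = cA * fA ^ m)
    (hcA : ∀ W1 ∈ P1.vals, W1.valuation cA = 1)
    (hsplitA : ∀ (y : F) (a a' : F1), a ∈ V1 i → a' ∈ V1 i →
      (V (i + 1)).valuation y = 1 → (V i).valuation y = 1 →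
      (V (i + 1)).valuation (y - α a) < 1 → (V i).valuation (y - α a') < 1 →
      (V1 i).valuation (@Algebra.norm F1 F _ _ α.toAlgebra y - a * a' ^ (qq - 1)) < 1)
    (hIDtop : ∀ b ∈ P.B, ∃ b' ∈ P1.B, (V (i + 1)).valuation (b - α b') < 1)
    (hIDsub : ∀ b ∈ P.B, ∃ b' ∈ P1.B, (V i).valuation (b - α b') < 1)
    (hfrobA : ∀ j, j + 1 ≤ i → ∀ y : F, (V j).valuation y = 1 →
      (V j).valuation (α (@Algebra.norm F1 F _ _ α.toAlgebra y) - y ^ qq) < 1)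
    (A1 : ℕ → P1.B) (A : ℕ → (P.B)ˣ) (hA : ∀ j, j ≤ i → ((A j : P.B) : F) = α (A1 j : F1))
    (hfA : ∀ j, j ≤ i → (V1 j).valuation (fA - (A1 j : F1)) < 1)
    -- the `β`-side
    {cB fB : F1} (hNB : @Algebra.norm F1 F _ _ β.toAlgebra z = cB * fB ^ m)
    (hcB : ∀ W1 ∈ P1.vals, W1.valuation cB = 1)
    (hsplitB : ∀ (y : F) (a a' : F1), a ∈ V1 0 → a' ∈ V1 0 →
      (V 0).valuation y = 1 → (V 1).valuation y = 1 →
      (V 0).valuation (y - β a) < 1 → (V 1).valuation (y - β a') < 1 →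
      (V1 0).valuation (@Algebra.norm F1 F _ _ β.toAlgebra y - a * a' ^ (qq - 1)) < 1)
    (hIDbot : ∀ b ∈ P.B, ∃ b' ∈ P1.B, (V 0).valuation (b - β b') < 1)
    (hIDone : ∀ b ∈ P.B, ∃ b' ∈ P1.B, (V 1).valuation (b - β b') < 1)
    (hfrobB : ∀ j, 1 ≤ j → j ≤ i → ∀ y : F, (V (j + 1)).valuation y = 1 →
      (V (j + 1)).valuation (β (@Algebra.norm F1 F _ _ β.toAlgebra y) - y ^ qq) < 1)
    (B1 : ℕ → P1.B) (B : ℕ → (P.B)ˣ) (hB : ∀ j, j ≤ i → ((B j : P.B) : F) = β (B1 j : F1))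
    (hfB : ∀ j, j ≤ i → (V1 j).valuation (fB - (B1 j : F1)) < 1) :
    ∀ 𝔫 : Ideal P.B, 𝔫.IsMaximal → (⟨q, L.hq⟩ : P.B) ∈ 𝔫 → ∀ s : F,
      (∀ W ∈ P.through 𝔫, W.valuation (s ^ m * z) = 1) →
      (∀ W ∈ P.through 𝔫, W ∈ P.vert q → ∀ W' ∈ P.through 𝔫, W' ∈ P.vert q → W = W') ∨
      ((∀ W ∈ P.through 𝔫, W ∈ P.vert q → ∃ w, w ≤ i + 1 ∧ W = V w) ∧
        (∀ w, w ≤ i + 1 → V w ∈ P.through 𝔫 ∧ V w ∈ P.vert q) ∧
        ∀ κ : ℕ → P.B ⧸ 𝔫, (∀ w, w ≤ i + 1 → P.BranchVal 𝔫 (V w) s (κ w)) →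
          (∀ w, w ≤ i + 1 → κ w ≠ 0) →
          (∀ j, j + 2 ≤ i + 1 → κ j ^ qq * Ideal.Quotient.mk 𝔫 (A j : P.B) =
            κ (i + 1) * κ (i + 1 - 1) ^ (qq - 1) * Ideal.Quotient.mk 𝔫 (A (i + 1 - 1) : P.B)) ∧
          (∀ j, 1 ≤ j → j + 1 ≤ i + 1 → κ (j + 1) ^ qq * Ideal.Quotient.mk 𝔫 (B j : P.B) =
            κ 0 * κ 1 ^ (qq - 1) * Ideal.Quotient.mk 𝔫 (B 0 : P.B))) := by
  have Hup := t4e_allAt_succ α β hi L1 L SA SB hQa hQb hpiA hpiB H1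
  refine P.t4e_hcase_of L.hq A B L.vert L.mem
    (fun 𝔫 h𝔫 _ a b ha hb hab hVa hVb => Hup.all 𝔫 h𝔫 a b ha hb hab hVa hVb) ?_
  intro 𝔫 h𝔫 _ hall s hs κ hκ hκ0
  exact ⟨t4e_rel_alpha α hi L1 L SA H1 hQa hpiA 𝔫 h𝔫 hall hm hs hNA hcA hsplitA hIDtop hIDsub
      hfrobA A1 A hA hfA hκ hκ0,
    t4e_rel_beta β hi L1 L SB H1 hQb hpiB 𝔫 h𝔫 hall hm hs hNB hcB hsplitB hIDbot hIDone
      hfrobB B1 B hB hfB hκ hκ0⟩

end TwoMaps

end Fermat.Agent.T4
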