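/-
T4E-L (helper5): **strong approximation for a finite family of pairwise distinct discrete valuation
subrings of a field** (purely valuation-theoretic; no geometry).

* `t4e_arch_le` : Archimedean property in valuation form;
* `t4e_dvr_not_le` : distinct discrete valuation subrings are incomparable;
* `t4e_exists_sep_pair`, `t4e_exists_sep` : an element `a` with `1 < v_i a` and `v_j a < 1` for the
  other members `j` of the family;
* `t4e_exists_idem` : approximate idempotents;
* **`t4e_strong_approx`** : for targets `c i ∈ F` and a precision `d ≠ 0` there is `h ∈ F` with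
  `h - c i ∈ d • V i` for every member of the family.
-/
import Fermat.Agent.Lib.T4.Local.Loc

set_option autoImplicit false
set_option linter.style.haveILetI false

namespace Fermat.Agent.T4

variable {F : Type*} [Field F]

/-- Archimedean property, valuation form: the powers of a nonzero non-unit eventually push every
element below every nonzero bound -/
theorem t4e_arch_le (V : ValuationSubring F) [IsDiscreteValuationRing V] {x : F}
    (hx : V.valuation x < 1) (hx0 : x ≠ 0) (f : F) {g : F} (hg : g ≠ 0) :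
    ∃ n : ℕ, ∀ r : ℕ, n ≤ r → V.valuation (x ^ r * f) ≤ V.valuation g := by
  obtain ⟨n, hn⟩ := t4l_arch V hx hx0 (f / g)
  refine ⟨n, fun r hr => ?_⟩
  have hgv : V.valuation g ≠ 0 := (Valuation.ne_zero_iff _).mpr hg
  have h1 : V.valuation (x ^ n * (f / g)) ≤ 1 := (V.valuation_le_one_iff _).mpr hn
  have h2 : x ^ r * f = x ^ (r - n) * (x ^ n * (f / g)) * g := by
    have : x ^ r = x ^ (r - n) * x ^ n := by rw [← pow_add, Nat.sub_add_cancel hr]
    rw [this]
    field_simp
  rw [h2, map_mul, map_mul, map_pow]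
  have h3 : V.valuation x ^ (r - n) ≤ 1 := pow_le_one₀ zero_le hx.le
  calc V.valuation x ^ (r - n) * V.valuation (x ^ n * (f / g)) * V.valuation g
      ≤ 1 * 1 * V.valuation g := by gcongr
    _ = V.valuation g := by rw [one_mul, one_mul]

/-- a discrete valuation subring contains a nonzero non-unit -/
theorem t4e_exists_lt_one (V : ValuationSubring F) [IsDiscreteValuationRing V] :
    ∃ x : F, x ≠ 0 ∧ V.valuation x < 1 := by
  obtain ⟨ϖ, hϖ⟩ := IsDiscreteValuationRing.exists_irreducible V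
  refine ⟨(ϖ : F), fun h => hϖ.ne_zero (Subtype.ext h), ?_⟩
  rcases lt_or_eq_of_le ((V.valuation_le_one_iff _).mpr ϖ.2) with h | h
  · exact h
  · exact absurd ((V.valuation_eq_one_iff ϖ).mpr h) hϖ.not_isUnit

/-- distinct discrete valuation subrings are incomparable -/
theorem t4e_dvr_not_le (V W : ValuationSubring F) [IsDiscreteValuationRing V]
    [IsDiscreteValuationRing W] (hVW : V ≠ W) : ∃ x : F, x ∈ V ∧ x ∉ W := by
  by_contra hcon
  push Not at hcon
  -- `V ≤ W`, `V ≠ W`: some `y ∈ W ∖ V`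
  have hne : ∃ y : F, y ∈ W ∧ y ∉ V := by
    by_contra h2
    push Not at h2
    exact hVW (le_antisymm (fun x hx => hcon x hx) (fun x hx => h2 x hx))
  obtain ⟨y, hyW, hyV⟩ := hne
  have hy0 : y ≠ 0 := fun h => hyV (h ▸ V.zero_mem)
  have hyi : V.valuation y⁻¹ < 1 := by
    rw [map_inv₀]
    have : 1 < V.valuation y := by
      rw [← not_le, V.valuation_le_one_iff]
      exact hyV
    exact inv_lt_one_of_one_lt₀ this
  -- every element of `F` lies in `W`
  obtain ⟨z, hz0, hz⟩ := t4e_exists_lt_one W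
  have hzi : z⁻¹ ∈ W := by
    obtain ⟨n, hn⟩ := t4l_arch V hyi (inv_ne_zero hy0) z⁻¹
    have h1 : z⁻¹ = y ^ n * (y⁻¹ ^ n * z⁻¹) := by
      rw [← mul_assoc, ← mul_pow, mul_inv_cancel₀ hy0, one_pow, one_mul]
    rw [h1]
    exact W.mul_mem _ _ (pow_mem hyW n) (hcon _ hn)
  have h2 : W.valuation z⁻¹ ≤ 1 := (W.valuation_le_one_iff _).mpr hzi
  rw [map_inv₀] at h2
  have hzv : W.valuation z ≠ 0 := (Valuation.ne_zero_iff _).mpr hz0
  have h3 : 1 ≤ W.valuation z := by
    have := (inv_le_one₀ (zero_lt_iff.mpr hzv)).mp h2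
    exact this
  exact absurd hz (not_lt.mpr h3)

/-- two distinct discrete valuation subrings are separated by an element -/
theorem t4e_exists_sep_pair (V W : ValuationSubring F) [IsDiscreteValuationRing V]
    [IsDiscreteValuationRing W] (hVW : V ≠ W) :
    ∃ a : F, 1 < V.valuation a ∧ W.valuation a < 1 := by
  obtain ⟨x, hxV, hxW⟩ := t4e_dvr_not_le V W hVW
  obtain ⟨y, hyW, hyV⟩ := t4e_dvr_not_le W V (Ne.symm hVW)
  have hx0 : x ≠ 0 := fun h => hxW (h ▸ W.zero_mem)
  have hy0 : y ≠ 0 := fun h => hyV (h ▸ V.zero_mem)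
  have h1 : V.valuation x ≤ 1 := (V.valuation_le_one_iff _).mpr hxV
  have h2 : 1 < W.valuation x := by rw [← not_le, W.valuation_le_one_iff]; exact hxW
  have h3 : W.valuation y ≤ 1 := (W.valuation_le_one_iff _).mpr hyW
  have h4 : 1 < V.valuation y := by rw [← not_le, V.valuation_le_one_iff]; exact hyV
  have hxv : V.valuation x ≠ 0 := (Valuation.ne_zero_iff _).mpr hx0
  have hxw : W.valuation x ≠ 0 := (Valuation.ne_zero_iff _).mpr hx0
  refine ⟨y / x, ?_, ?_⟩
  · rw [map_div₀, one_lt_div₀ (zero_lt_iff.mpr hxv)]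
    exact lt_of_le_of_lt h1 h4
  · rw [map_div₀, div_lt_one₀ (zero_lt_iff.mpr hxw)]
    exact lt_of_le_of_lt h3 h2

/-- a uniform bound from finitely many eventual statements -/
theorem t4e_exists_uniform {ι : Type*} (t : Finset ι) (p : ι → ℕ → Prop)
    (h : ∀ j ∈ t, ∃ n : ℕ, ∀ r : ℕ, n ≤ r → p j r) :
    ∃ n : ℕ, ∀ j ∈ t, ∀ r : ℕ, n ≤ r → p j r := by
  classical
  choose! f hf using h
  exact ⟨t.sup f, fun j hj r hr => hf j hj r (le_trans (Finset.le_sup hj) hr)⟩

/-- `v (1 + A) = v A` when `1 < v A` -/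
theorem t4e_val_one_add_of_gt (V : ValuationSubring F) {A : F} (h : 1 < V.valuation A) :
    V.valuation (1 + A) = V.valuation A :=
  V.valuation.map_add_eq_of_lt_right (by rw [map_one]; exact h)

/-- `v (1 + A) = 1` when `v A < 1` -/
theorem t4e_val_one_add_of_lt (V : ValuationSubring F) {A : F} (h : V.valuation A < 1) :
    V.valuation (1 + A) = 1 := by
  rw [V.valuation.map_add_eq_of_lt_left (by rw [map_one]; exact h), map_one]

/-- in a finite family of discrete valuation subrings distinct from `V i`: an element `a` with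
`1 < v_i a` and `v_j a < 1` for all `j` in the family -/
theorem t4e_exists_sep {ι : Type*} (V : ι → ValuationSubring F) (i : ι)
    [IsDiscreteValuationRing (V i)] (t : Finset ι)
    (hdvr : ∀ j ∈ t, IsDiscreteValuationRing (V j)) (hne : ∀ j ∈ t, V j ≠ V i) :
    ∃ a : F, 1 < (V i).valuation a ∧ ∀ j ∈ t, (V j).valuation a < 1 := by
  classical
  induction t using Finset.induction_on with
  | empty =>
    obtain ⟨x, hx0, hx⟩ := t4e_exists_lt_one (V i)
    refine ⟨x⁻¹, ?_, fun j hj => absurd hj (Finset.notMem_empty j)⟩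
    rw [map_inv₀]
    exact (one_lt_inv₀ (zero_lt_iff.mpr ((Valuation.ne_zero_iff _).mpr hx0))).mpr hx
  | insert n t hn ih =>
    obtain ⟨a, hai, haj⟩ := ih (fun j hj => hdvr j (Finset.mem_insert_of_mem hj))
      (fun j hj => hne j (Finset.mem_insert_of_mem hj))
    haveI := hdvr n (Finset.mem_insert_self n t)
    obtain ⟨b, hbi, hbn⟩ := t4e_exists_sep_pair (V i) (V n) (hne n (Finset.mem_insert_self n t)).symm
    have ha0 : a ≠ 0 := by
      rintro rfl
      rw [map_zero] at hai
      exact absurd hai (not_lt.mpr zero_le_one)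
    have hb0 : b ≠ 0 := by
      rintro rfl
      rw [map_zero] at hbi
      exact absurd hbi (not_lt.mpr zero_le_one)
    -- a uniform exponent for the members of `t`
    obtain ⟨N, hN⟩ := t4e_exists_uniform t
      (fun j r => (V j).valuation (a ^ r * b) ≤ (V j).valuation a) (fun j hj => by
        haveI := hdvr j (Finset.mem_insert_of_mem hj)
        exact t4e_arch_le (V j) (haj j hj) ha0 b ha0)
    rcases lt_trichotomy ((V n).valuation a) 1 with hlt | heq | hgt
    · -- `a` works
      refine ⟨a, hai, fun j hj => ?_⟩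
      rcases Finset.mem_insert.mp hj with rfl | hj
      · exact hlt
      · exact haj j hj
    · -- `a ^ N * b`
      refine ⟨a ^ N * b, ?_, fun j hj => ?_⟩
      · rw [map_mul, map_pow]
        have h1 : 1 ≤ (V i).valuation a ^ N := one_le_pow₀ hai.le
        calc (1 : (V i).ValueGroup) < (V i).valuation b := hbi
          _ = 1 * (V i).valuation b := (one_mul _).symm
          _ ≤ (V i).valuation a ^ N * (V i).valuation b := by gcongr
      · rcases Finset.mem_insert.mp hj with rfl | hj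
        · rw [map_mul, map_pow, heq, one_pow, one_mul]
          exact hbn
        · exact lt_of_le_of_lt (hN j hj N le_rfl) (haj j hj)
    · -- `a ^ r * b / (1 + a ^ r)`, `r = max N 1`
      have hr1 : max N 1 ≠ 0 := by omega
      have hiA : 1 < (V i).valuation (a ^ max N 1) := by
        rw [map_pow]; exact one_lt_pow₀ hai hr1
      have hnA : 1 < (V n).valuation (a ^ max N 1) := by
        rw [map_pow]; exact one_lt_pow₀ hgt hr1
      have hA0 : a ^ max N 1 ≠ 0 := pow_ne_zero _ ha0
      refine ⟨a ^ max N 1 * b / (1 + a ^ max N 1), ?_, fun j hj => ?_⟩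
      · rw [map_div₀, t4e_val_one_add_of_gt _ hiA, map_mul,
          mul_div_cancel_left₀ _ ((Valuation.ne_zero_iff _).mpr hA0)]
        exact hbi
      · rcases Finset.mem_insert.mp hj with rfl | hj
        · rw [map_div₀, t4e_val_one_add_of_gt _ hnA, map_mul,
            mul_div_cancel_left₀ _ ((Valuation.ne_zero_iff _).mpr hA0)]
          exact hbn
        · have hjA : (V j).valuation (a ^ max N 1) < 1 := by
            rw [map_pow]; exact pow_lt_one₀ zero_le (haj j hj) hr1
          rw [map_div₀, t4e_val_one_add_of_lt _ hjA, div_one]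
          exact lt_of_le_of_lt (hN j hj _ (le_max_left N 1)) (haj j hj)

/-- **approximate idempotents**: for `i` and a finite family `t` of discrete valuation subrings
distinct from `V i`, any `f` and any precision `d ≠ 0` there is `E` with `(E - 1) f ∈ d V_i` and
`E f ∈ d V_j` for `j ∈ t` -/
theorem t4e_exists_idem {ι : Type*} (V : ι → ValuationSubring F) (i : ι)
    [IsDiscreteValuationRing (V i)] (t : Finset ι)
    (hdvr : ∀ j ∈ t, IsDiscreteValuationRing (V j)) (hne : ∀ j ∈ t, V j ≠ V i)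
    (f : F) {d : ι → F} (hd : ∀ j, d j ≠ 0) :
    ∃ E : F, (V i).valuation ((E - 1) * f) ≤ (V i).valuation (d i) ∧
      ∀ j ∈ t, (V j).valuation (E * f) ≤ (V j).valuation (d j) := by
  obtain ⟨a, hai, haj⟩ := t4e_exists_sep V i t hdvr hne
  have ha0 : a ≠ 0 := by
    rintro rfl
    rw [map_zero] at hai
    exact absurd hai (not_lt.mpr zero_le_one)
  have hai' : (V i).valuation a⁻¹ < 1 := by
    rw [map_inv₀]; exact inv_lt_one_of_one_lt₀ hai
  obtain ⟨N0, hN0⟩ := t4e_arch_le (V i) hai' (inv_ne_zero ha0) f (hd i)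
  obtain ⟨N, hN⟩ := t4e_exists_uniform t
    (fun j r => (V j).valuation (a ^ r * f) ≤ (V j).valuation (d j)) (fun j hj => by
      haveI := hdvr j hj
      exact t4e_arch_le (V j) (haj j hj) ha0 f (hd j))
  set r := max (max N0 N) 1 with hr
  have hr1 : r ≠ 0 := by omega
  have hA0 : a ^ r ≠ 0 := pow_ne_zero _ ha0
  have hiA : 1 < (V i).valuation (a ^ r) := by rw [map_pow]; exact one_lt_pow₀ hai hr1
  have h1A : 1 + a ^ r ≠ 0 := by
    intro h0
    have := t4e_val_one_add_of_gt _ hiA
    rw [h0, map_zero] at this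
    exact (Valuation.ne_zero_iff _).mpr hA0 this.symm
  refine ⟨a ^ r / (1 + a ^ r), ?_, fun j hj => ?_⟩
  · have hBA : a⁻¹ ^ r * a ^ r = 1 := by rw [← mul_pow, inv_mul_cancel₀ ha0, one_pow]
    have h1 : (a ^ r / (1 + a ^ r) - 1) * f = -(a⁻¹ ^ r * f) * (a ^ r / (1 + a ^ r)) := by
      have e1 : a ^ r / (1 + a ^ r) - 1 = -1 / (1 + a ^ r) := by
        field_simp
        ring
      have e2 : -(a⁻¹ ^ r * f) * (a ^ r / (1 + a ^ r)) =
          -(a⁻¹ ^ r * a ^ r) * f / (1 + a ^ r) := by ring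
      rw [e1, e2, hBA]
      ring
    rw [h1, map_mul, Valuation.map_neg, map_div₀, t4e_val_one_add_of_gt _ hiA,
      div_self ((Valuation.ne_zero_iff _).mpr hA0), mul_one]
    exact hN0 r (by omega)
  · have hjA : (V j).valuation (a ^ r) < 1 := by
      rw [map_pow]; exact pow_lt_one₀ zero_le (haj j hj) hr1
    have h1 : a ^ r / (1 + a ^ r) * f = a ^ r * f / (1 + a ^ r) := by ring
    rw [h1, map_div₀, t4e_val_one_add_of_lt _ hjA, div_one]
    exact hN j hj r (by omega)

/-- **strong approximation** for a finite family of pairwise distinct discrete valuation subrings,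
with a precision `d i ≠ 0` for each member: for targets `c i` there is `h` with `h - c i ∈ d_i V_i`
for all `i` -/
theorem t4e_strong_approx' {ι : Type*} (s : Finset ι) (V : ι → ValuationSubring F)
    (hdvr : ∀ i ∈ s, IsDiscreteValuationRing (V i))
    (hinj : ∀ i ∈ s, ∀ j ∈ s, V i = V j → i = j) (c : ι → F) {d : ι → F} (hd : ∀ i, d i ≠ 0) :
    ∃ h : F, ∀ i ∈ s, ∃ o ∈ V i, h - c i = d i * o := by
  classical
  -- the approximate idempotents
  have hE : ∀ i ∈ s, ∃ E : F, (V i).valuation ((E - 1) * c i) ≤ (V i).valuation (d i) ∧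
      ∀ j ∈ s.erase i, (V j).valuation (E * c i) ≤ (V j).valuation (d j) := by
    intro i hi
    haveI := hdvr i hi
    exact t4e_exists_idem V i (s.erase i) (fun j hj => hdvr j (Finset.mem_of_mem_erase hj))
      (fun j hj heq => (Finset.ne_of_mem_erase hj) (hinj j (Finset.mem_of_mem_erase hj) i hi heq))
      (c i) hd
  choose! E hE1 hE2 using hE
  refine ⟨∑ j ∈ s, E j * c j, fun i hi => ?_⟩
  have hdv : (V i).valuation (d i) ≠ 0 := (Valuation.ne_zero_iff _).mpr (hd i)
  have hval : (V i).valuation (∑ j ∈ s, E j * c j - c i) ≤ (V i).valuation (d i) := by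
    have h1 : ∑ j ∈ s, E j * c j - c i = (E i - 1) * c i + ∑ j ∈ s.erase i, E j * c j := by
      rw [← Finset.add_sum_erase s _ hi]
      ring
    rw [h1]
    refine le_trans ((V i).valuation.map_add _ _) (max_le (hE1 i hi) ?_)
    refine (V i).valuation.map_sum_le fun j hj => ?_
    exact hE2 j (Finset.mem_of_mem_erase hj) i
      (Finset.mem_erase.mpr ⟨(Finset.ne_of_mem_erase hj).symm, hi⟩)
  have hdi := hd i
  refine ⟨(∑ j ∈ s, E j * c j - c i) / d i, ?_, by field_simp⟩
  rw [← (V i).valuation_le_one_iff, map_div₀]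
  exact div_le_one_of_le₀ hval zero_le

/-- **strong approximation**, uniform precision `d ≠ 0` -/
theorem t4e_strong_approx {ι : Type*} (s : Finset ι) (V : ι → ValuationSubring F)
    (hdvr : ∀ i ∈ s, IsDiscreteValuationRing (V i))
    (hinj : ∀ i ∈ s, ∀ j ∈ s, V i = V j → i = j) (c : ι → F) {d : F} (hd : d ≠ 0) :
    ∃ h : F, ∀ i ∈ s, ∃ o ∈ V i, h - c i = d * o :=
  t4e_strong_approx' s V hdvr hinj c (d := fun _ => d) (fun _ => hd)

/-- valuation form of a congruence `h - c = d * o`, `o ∈ V` -/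
theorem t4e_valuation_sub_le (V : ValuationSubring F) {h c d : F}
    (hc : ∃ o ∈ V, h - c = d * o) : V.valuation (h - c) ≤ V.valuation d := by
  obtain ⟨o, ho, e⟩ := hc
  rw [e, map_mul]
  calc V.valuation d * V.valuation o ≤ V.valuation d * 1 := by
        gcongr
        exact (V.valuation_le_one_iff _).mpr ho
    _ = V.valuation d := mul_one _

/-- **prescribed residues**: targets `c i ∈ V i`, precision `d` in all the maximal ideals; then `h`
lies in all `V i`, `h ≡ c i` modulo `d V_i`, and `h` is a unit of `V i` whenever `c i` is -/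
theorem t4e_approx_res {ι : Type*} (s : Finset ι) (V : ι → ValuationSubring F)
    (hdvr : ∀ i ∈ s, IsDiscreteValuationRing (V i))
    (hinj : ∀ i ∈ s, ∀ j ∈ s, V i = V j → i = j) (c : ι → F) (hc : ∀ i ∈ s, c i ∈ V i)
    {d : F} (hd : d ≠ 0) (hdV : ∀ i ∈ s, (V i).valuation d < 1) :
    ∃ h : F, (∀ i ∈ s, ∃ o ∈ V i, h - c i = d * o) ∧ (∀ i ∈ s, h ∈ V i) ∧
      (∀ i ∈ s, (V i).valuation (h - c i) < 1) ∧
      ∀ i ∈ s, (V i).valuation (c i) = 1 → (V i).valuation h = 1 := by
  obtain ⟨h, hh⟩ := t4e_strong_approx s V hdvr hinj c hd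
  have hlt : ∀ i ∈ s, (V i).valuation (h - c i) < 1 := fun i hi =>
    lt_of_le_of_lt (t4e_valuation_sub_le (V i) (hh i hi)) (hdV i hi)
  refine ⟨h, hh, fun i hi => ?_, hlt, fun i hi hci => ?_⟩
  · have : h = (h - c i) + c i := by ring
    rw [this]
    exact (V i).add_mem _ _ ((V i).valuation_le_one_iff _ |>.mp (hlt i hi).le) (hc i hi)
  · have : h = (h - c i) + c i := by ring
    rw [this, (V i).valuation.map_add_eq_of_lt_right (by rw [hci]; exact hlt i hi), hci]

/-- **prescribed valuations**: for nonzero `c i` there is `g ≠ 0` with `v_i g = v_i (c i)` for all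
members of the family -/
theorem t4e_approx_val {ι : Type*} (s : Finset ι) (V : ι → ValuationSubring F)
    (hdvr : ∀ i ∈ s, IsDiscreteValuationRing (V i))
    (hinj : ∀ i ∈ s, ∀ j ∈ s, V i = V j → i = j) (c : ι → F) (hc : ∀ i, c i ≠ 0) :
    ∃ g : F, g ≠ 0 ∧ ∀ i ∈ s, (V i).valuation g = (V i).valuation (c i) := by
  classical
  rcases s.eq_empty_or_nonempty with rfl | ⟨i₀, hi₀⟩
  · exact ⟨1, one_ne_zero, fun i hi => absurd hi (Finset.notMem_empty i)⟩
  -- a small element for each member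
  have ht : ∀ i ∈ s, ∃ t : F, t ≠ 0 ∧ (V i).valuation t < 1 := fun i hi => by
    haveI := hdvr i hi
    exact t4e_exists_lt_one (V i)
  choose! t ht0 ht1 using ht
  set d : ι → F := fun i => if i ∈ s then c i * t i else 1 with hd
  have hd0 : ∀ i, d i ≠ 0 := by
    intro i
    simp only [hd]
    split_ifs with hi
    · exact mul_ne_zero (hc i) (ht0 i hi)
    · exact one_ne_zero
  obtain ⟨g, hg⟩ := t4e_strong_approx' s V hdvr hinj c hd0
  have hval : ∀ i ∈ s, (V i).valuation g = (V i).valuation (c i) := by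
    intro i hi
    have h1 := t4e_valuation_sub_le (V i) (hg i hi)
    have h2 : (V i).valuation (d i) < (V i).valuation (c i) := by
      simp only [hd, if_pos hi, map_mul]
      have hcv : (V i).valuation (c i) ≠ 0 := (Valuation.ne_zero_iff _).mpr (hc i)
      calc (V i).valuation (c i) * (V i).valuation (t i)
          < (V i).valuation (c i) * 1 := by
            exact mul_lt_mul_of_pos_left (ht1 i hi) (zero_lt_iff.mpr hcv)
        _ = (V i).valuation (c i) := mul_one _
    have : g = (g - c i) + c i := by ring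
    rw [this, (V i).valuation.map_add_eq_of_lt_right (lt_of_le_of_lt h1 h2)]
  refine ⟨g, ?_, hval⟩
  rintro rfl
  have := hval i₀ hi₀
  rw [map_zero] at this
  exact (Valuation.ne_zero_iff _).mpr (hc i₀) this.symm

/-- `h ^ m - c ^ m ∈ d V` when `h - c ∈ d V`, `h, c ∈ V` -/
theorem t4e_pow_congr (V : ValuationSubring F) {h c d : F} (hh : h ∈ V) (hc : c ∈ V)
    (hcong : ∃ o ∈ V, h - c = d * o) (m : ℕ) : ∃ o ∈ V, h ^ m - c ^ m = d * o := by
  obtain ⟨o, ho, e⟩ := hcong
  refine ⟨o * ∑ i ∈ Finset.range m, h ^ i * c ^ (m - 1 - i), ?_, ?_⟩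
  · exact V.mul_mem _ _ ho (sum_mem fun i _ => V.mul_mem _ _ (pow_mem hh _) (pow_mem hc _))
  · have := Commute.mul_geom_sum₂ (Commute.all h c) m
    rw [← mul_assoc, ← e, ← this]

/-- **the correcting element of step C** for a labelled family: targets `ξ i ∈ V i` with
`ξ i ^ m ≡ 1` modulo `q V_i`; then there is `h ≠ 0` in all the `V i` with `h ≡ ξ i` modulo `q V_i`
and `h ^ m ≡ 1` modulo `q` in the intersection of the `V i` -/
theorem t4e_exists_corr {ι : Type*} (s : Finset ι) (hs : s.Nonempty)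
    (V : ι → ValuationSubring F) (hdvr : ∀ i ∈ s, IsDiscreteValuationRing (V i))
    (hinj : ∀ i ∈ s, ∀ j ∈ s, V i = V j → i = j) (ξ : ι → F) (hξ : ∀ i ∈ s, ξ i ∈ V i)
    {q : F} (hq0 : q ≠ 0) (hqV : ∀ i ∈ s, (V i).valuation q < 1) {m : ℕ} (hm : m ≠ 0)
    (hξm : ∀ i ∈ s, ∃ o ∈ V i, ξ i ^ m - 1 = q * o) :
    ∃ h : F, h ≠ 0 ∧ (∀ i ∈ s, h ∈ V i) ∧ (∀ i ∈ s, ∃ o ∈ V i, h - ξ i = q * o) ∧
      (∀ i ∈ s, (V i).valuation (h - ξ i) < 1) ∧
      ∃ o : F, (∀ i ∈ s, o ∈ V i) ∧ h ^ m - 1 = q * o := by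
  obtain ⟨h, h1, h2, h3, -⟩ := t4e_approx_res s V hdvr hinj ξ hξ hq0 hqV
  have hpow : ∀ i ∈ s, ∃ o ∈ V i, h ^ m - 1 = q * o := by
    intro i hi
    obtain ⟨o1, ho1, e1⟩ := t4e_pow_congr (V i) (h2 i hi) (hξ i hi) (h1 i hi) m
    obtain ⟨o2, ho2, e2⟩ := hξm i hi
    refine ⟨o1 + o2, (V i).add_mem _ _ ho1 ho2, ?_⟩
    rw [mul_add, ← e1, ← e2]
    ring
  have hmem : ∀ i ∈ s, (h ^ m - 1) / q ∈ V i := by
    intro i hi
    obtain ⟨o, ho, e⟩ := hpow i hi
    rw [e, mul_div_cancel_left₀ _ hq0]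
    exact ho
  refine ⟨h, ?_, h2, h1, h3, (h ^ m - 1) / q, hmem, by field_simp⟩
  rintro rfl
  obtain ⟨i₀, hi₀⟩ := hs
  have h4 := hmem i₀ hi₀
  rw [zero_pow hm, zero_sub] at h4
  have h5 : q⁻¹ ∈ V i₀ := by
    have : q⁻¹ = -(-1 / q) := by field_simp
    rw [this]
    exact (V i₀).neg_mem _ h4
  have h6 : (V i₀).valuation q⁻¹ ≤ 1 := ((V i₀).valuation_le_one_iff _).mpr h5
  rw [map_inv₀] at h6
  have hqv : (V i₀).valuation q ≠ 0 := (Valuation.ne_zero_iff _).mpr hq0
  have h7 := (inv_le_one₀ (zero_lt_iff.mpr hqv)).mp h6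
  exact absurd (hqV i₀ hi₀) (not_lt.mpr h7)

end Fermat.Agent.T4
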