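/-
T4E step C (helper5): the chart-level hypotheses of step C at level `q ^ e` (`e ≥ 3`) as ONE
structure, and the core consequence: the twist of `z' = z ^ (q * q) * h ^ m` has a global section
reducing to `1`.

* `T4eRChart P q m z E ξ h` : the level-agnostic RATIO form (hypotheses of `T4Pres.t4e_glue_ratio`);
* `T4eCChart P q m z qq e Vw A B h` : the LABELLED form (hypotheses of `T4Pres.t4e_glue_stepC`):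
  vertical branches `Vw 0, …, Vw e`, ALL-OR-ONE, relations (α), (β) with unit constants `A j`, `B j`;
* `T4eCChart.toRChart`, `T4eRChart.glue`, `T4eCChart.glue`;
* `t4e_stepC_core_ratio`, `t4e_stepC_core` : both charts + `t4c_Mbar1_le`, `t4c_Mbar2_le` +
  `T4Twist.t4_core` (all level-agnostic, from `Lib/T4/Core`).
-/
import Fermat.Agent.Lib.T4.Core.GlueAdapter
import Fermat.Agent.Lib.T4E.Local.StepC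

set_option autoImplicit false
set_option linter.style.haveILetI false

namespace Fermat.Agent.T4

open T2 (T2Base t2Int)

/-- the hypotheses of step C on one chart, ratio form (level-agnostic) -/
structure T4eRChart {F : Type*} [Field F] (P : T4Pres F) (q : F) (m : ℕ) (z : F) (E : ℕ)
    (ξ : ValuationSubring F → P.B) (h : F) : Prop where
  noeth : IsNoetherianRing P.B
  hq : q ∈ P.B
  hm : (m : F)⁻¹ ∈ P.B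
  hreg : ∀ 𝔫 : Ideal P.B, 𝔫.IsMaximal → (⟨q, hq⟩ : P.B) ∈ 𝔫 → P.RegAt 𝔫
  hsm : ∀ 𝔫 : Ideal P.B, 𝔫.IsMaximal → (⟨q, hq⟩ : P.B) ∈ 𝔫 →
    ∀ (V : ValuationSubring F) (hV : V ∈ P.through 𝔫), V ∈ P.vert q → P.SmoothAt 𝔫 V hV
  hroot : ∀ V ∈ P.vals, V ∉ P.vert q → ∃ t : F, V.valuation (t ^ m * z) = 1
  hξ : ∀ 𝔫 : Ideal P.B, 𝔫.IsMaximal → ∀ V : ValuationSubring F, ξ V ∉ 𝔫
  hratio : ∀ 𝔫 : Ideal P.B, 𝔫.IsMaximal → (⟨q, hq⟩ : P.B) ∈ 𝔫 → ∀ s : F,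
    (∀ V ∈ P.through 𝔫, V.valuation (s ^ m * z) = 1) →
    ∀ V ∈ P.through 𝔫, V ∈ P.vert q → ∀ W ∈ P.through 𝔫, W ∈ P.vert q →
      ∀ κ κ' : P.B ⧸ 𝔫, P.BranchVal 𝔫 V s κ → P.BranchVal 𝔫 W s κ' → κ ≠ 0 → κ' ≠ 0 →
        κ ^ E * Ideal.Quotient.mk 𝔫 (ξ W) = κ' ^ E * Ideal.Quotient.mk 𝔫 (ξ V)
  hh : ∀ V ∈ P.vert q, V.valuation (h - (ξ V : F)) < 1

/-- the hypotheses of step C on one chart, labelled form (`e ≥ 3`) -/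
structure T4eCChart {F : Type*} [Field F] (P : T4Pres F) (q : F) (m : ℕ) (z : F) (qq e : ℕ)
    (Vw : ℕ → ValuationSubring F) (A B : ℕ → (P.B)ˣ) (h : F) : Prop where
  noeth : IsNoetherianRing P.B
  hq : q ∈ P.B
  hm : (m : F)⁻¹ ∈ P.B
  hreg : ∀ 𝔫 : Ideal P.B, 𝔫.IsMaximal → (⟨q, hq⟩ : P.B) ∈ 𝔫 → P.RegAt 𝔫
  hsm : ∀ 𝔫 : Ideal P.B, 𝔫.IsMaximal → (⟨q, hq⟩ : P.B) ∈ 𝔫 →
    ∀ (V : ValuationSubring F) (hV : V ∈ P.through 𝔫), V ∈ P.vert q → P.SmoothAt 𝔫 V hV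
  hroot : ∀ V ∈ P.vals, V ∉ P.vert q → ∃ t : F, V.valuation (t ^ m * z) = 1
  hcase : ∀ 𝔫 : Ideal P.B, 𝔫.IsMaximal → (⟨q, hq⟩ : P.B) ∈ 𝔫 → ∀ s : F,
    (∀ V ∈ P.through 𝔫, V.valuation (s ^ m * z) = 1) →
    (∀ V ∈ P.through 𝔫, V ∈ P.vert q → ∀ W ∈ P.through 𝔫, W ∈ P.vert q → V = W) ∨
    ((∀ V ∈ P.through 𝔫, V ∈ P.vert q → ∃ w, w ≤ e ∧ V = Vw w) ∧
      (∀ w, w ≤ e → Vw w ∈ P.through 𝔫 ∧ Vw w ∈ P.vert q) ∧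
      ∀ κ : ℕ → P.B ⧸ 𝔫, (∀ w, w ≤ e → P.BranchVal 𝔫 (Vw w) s (κ w)) →
        (∀ w, w ≤ e → κ w ≠ 0) →
        (∀ j, j + 2 ≤ e → κ j ^ qq * Ideal.Quotient.mk 𝔫 (A j : P.B) =
          κ e * κ (e - 1) ^ (qq - 1) * Ideal.Quotient.mk 𝔫 (A (e - 1) : P.B)) ∧
        (∀ j, 1 ≤ j → j + 1 ≤ e → κ (j + 1) ^ qq * Ideal.Quotient.mk 𝔫 (B j : P.B) =
          κ 0 * κ 1 ^ (qq - 1) * Ideal.Quotient.mk 𝔫 (B 0 : P.B)))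
  hh : ∀ V ∈ P.vert q, V.valuation (h - (P.t4eXiV Vw e qq A B V : F)) < 1

variable {K F k Fb : Type*} [Field K] [Field F] [Algebra K F] [Field k] [CommRing Fb] [Algebra k Fb]

/-- the local-to-global statement on a chart satisfying `T4eRChart` -/
theorem T4eRChart.glue {P : T4Pres F} {q : F} {m : ℕ} {z : F} {E : ℕ}
    {ξ : ValuationSubring F → P.B} {h : F} (C : T4eRChart P q m z E ξ h) (hq0 : q ≠ 0)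
    (hmF : (m : F) ≠ 0) (hz0 : z ≠ 0) (hz : P.CongrOv q z 1) (hh0 : h ≠ 0)
    (hhm : P.CongrOv q (h ^ m) 1) {t : F} (ht : t ∈ P.ov q)
    (htz : t ^ m * (z ^ E * h ^ m) ∈ P.B) : ∃ b' ∈ P.B, P.CongrOv q t b' := by
  haveI := C.noeth
  exact P.t4e_glue_ratio C.hq hq0 C.hm hmF hz0 hz C.hreg C.hsm C.hroot ξ C.hξ C.hratio hh0 C.hh
    hhm ht htz

/-- the local-to-global statement on a chart satisfying `T4eCChart` -/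
theorem T4eCChart.glue {P : T4Pres F} {q : F} {m : ℕ} {z : F} {qq e : ℕ}
    {Vw : ℕ → ValuationSubring F} {A B : ℕ → (P.B)ˣ} {h : F}
    (C : T4eCChart P q m z qq e Vw A B h) (he : 3 ≤ e) (hqq : 0 < qq)
    (hinj : ∀ i j, i ≤ e → j ≤ e → Vw i = Vw j → i = j) (hq0 : q ≠ 0)
    (hmF : (m : F) ≠ 0) (hz0 : z ≠ 0) (hz : P.CongrOv q z 1) (hh0 : h ≠ 0)
    (hhm : P.CongrOv q (h ^ m) 1) {t : F} (ht : t ∈ P.ov q)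
    (htz : t ^ m * (z ^ (qq * qq) * h ^ m) ∈ P.B) : ∃ b' ∈ P.B, P.CongrOv q t b' := by
  haveI := C.noeth
  exact P.t4e_glue_stepC C.hq hq0 C.hm hmF hz0 hz C.hreg C.hsm C.hroot he hqq hinj A B C.hcase
    hh0 C.hh hhm ht htz

/-- **step C, core, ratio form**: both charts satisfy `T4eRChart`; then the twist of
`z' = z ^ E * h ^ m` has a global section reducing to `1` -/
theorem t4e_stepC_core_ratio {d : T2Base K F k Fb} {su : T4Setup d} (tw : T4Twist su)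
    (P₁ P₂ : T4Pres F) {q : F}
    (hB₁ : ∀ f : F, f ∈ P₁.B ↔ f ∈ t2Int (K := K) su.x ∧ f ∈ d.Ov)
    (hB₂ : ∀ f : F, f ∈ P₂.B ↔ f ∈ t2Int (K := K) su.x⁻¹ ∧ f ∈ d.Ov)
    (hOv₁ : ∀ f : F, f ∈ P₁.ov q ↔ f ∈ d.Ov) (hOv₂ : ∀ f : F, f ∈ P₂.ov q ↔ f ∈ d.Ov)
    (hqres : ∃ hq : q ∈ d.Ov, d.res ⟨q, hq⟩ = 0) (hq0 : q ≠ 0) (hmF : (su.m : F) ≠ 0)
    {z h : F} (hz0 : z ≠ 0) (hz : ∃ o ∈ d.Ov, z - 1 = q * o) (hh0 : h ≠ 0)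
    (hhm : ∃ o ∈ d.Ov, h ^ su.m - 1 = q * o) {E : ℕ}
    {ξ₁ : ValuationSubring F → P₁.B} {ξ₂ : ValuationSubring F → P₂.B}
    (C₁ : T4eRChart P₁ q su.m z E ξ₁ h) (C₂ : T4eRChart P₂ q su.m z E ξ₂ h)
    (hy : tw.y = z ^ E * h ^ su.m) :
    ∃ s : F, s ∈ tw.L1 ∧ s ∈ tw.L2 ∧ ∃ hs : s ∈ d.Ov, d.res ⟨s, hs⟩ = 1 := by
  have hz₁ : P₁.CongrOv q z 1 := by
    obtain ⟨o, ho, hzo⟩ := hz
    exact ⟨o, (hOv₁ o).mpr ho, hzo⟩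
  have hz₂ : P₂.CongrOv q z 1 := by
    obtain ⟨o, ho, hzo⟩ := hz
    exact ⟨o, (hOv₂ o).mpr ho, hzo⟩
  have hh₁ : P₁.CongrOv q (h ^ su.m) 1 := by
    obtain ⟨o, ho, hzo⟩ := hhm
    exact ⟨o, (hOv₁ o).mpr ho, hzo⟩
  have hh₂ : P₂.CongrOv q (h ^ su.m) 1 := by
    obtain ⟨o, ho, hzo⟩ := hhm
    exact ⟨o, (hOv₂ o).mpr ho, hzo⟩
  refine tw.t4_core (t4c_Mbar1_le tw P₁ hB₁ hOv₁ hqres ?_) (t4c_Mbar2_le tw P₂ hB₂ hOv₂ hqres ?_)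
  · intro t ht htz
    rw [hy] at htz
    exact C₁.glue hq0 hmF hz0 hz₁ hh0 hh₁ ht htz
  · intro t ht htz
    rw [hy] at htz
    exact C₂.glue hq0 hmF hz0 hz₂ hh0 hh₂ ht htz

/-- **step C, core, labelled form** (`e ≥ 3`): both charts satisfy `T4eCChart`; then the twist of
`z' = z ^ (q * q) * h ^ m` has a global section reducing to `1` -/
theorem t4e_stepC_core {d : T2Base K F k Fb} {su : T4Setup d} (tw : T4Twist su)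
    (P₁ P₂ : T4Pres F) {q : F}
    (hB₁ : ∀ f : F, f ∈ P₁.B ↔ f ∈ t2Int (K := K) su.x ∧ f ∈ d.Ov)
    (hB₂ : ∀ f : F, f ∈ P₂.B ↔ f ∈ t2Int (K := K) su.x⁻¹ ∧ f ∈ d.Ov)
    (hOv₁ : ∀ f : F, f ∈ P₁.ov q ↔ f ∈ d.Ov) (hOv₂ : ∀ f : F, f ∈ P₂.ov q ↔ f ∈ d.Ov)
    (hqres : ∃ hq : q ∈ d.Ov, d.res ⟨q, hq⟩ = 0) (hq0 : q ≠ 0) (hmF : (su.m : F) ≠ 0)
    {z h : F} (hz0 : z ≠ 0) (hz : ∃ o ∈ d.Ov, z - 1 = q * o) (hh0 : h ≠ 0)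
    (hhm : ∃ o ∈ d.Ov, h ^ su.m - 1 = q * o) {qq e : ℕ} (he : 3 ≤ e) (hqq : 0 < qq)
    {Vw : ℕ → ValuationSubring F} (hinj : ∀ i j, i ≤ e → j ≤ e → Vw i = Vw j → i = j)
    {A₁ B₁ : ℕ → (P₁.B)ˣ} {A₂ B₂ : ℕ → (P₂.B)ˣ}
    (C₁ : T4eCChart P₁ q su.m z qq e Vw A₁ B₁ h) (C₂ : T4eCChart P₂ q su.m z qq e Vw A₂ B₂ h)
    (hy : tw.y = z ^ (qq * qq) * h ^ su.m) :
    ∃ s : F, s ∈ tw.L1 ∧ s ∈ tw.L2 ∧ ∃ hs : s ∈ d.Ov, d.res ⟨s, hs⟩ = 1 := by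
  have hz₁ : P₁.CongrOv q z 1 := by
    obtain ⟨o, ho, hzo⟩ := hz
    exact ⟨o, (hOv₁ o).mpr ho, hzo⟩
  have hz₂ : P₂.CongrOv q z 1 := by
    obtain ⟨o, ho, hzo⟩ := hz
    exact ⟨o, (hOv₂ o).mpr ho, hzo⟩
  have hh₁ : P₁.CongrOv q (h ^ su.m) 1 := by
    obtain ⟨o, ho, hzo⟩ := hhm
    exact ⟨o, (hOv₁ o).mpr ho, hzo⟩
  have hh₂ : P₂.CongrOv q (h ^ su.m) 1 := by
    obtain ⟨o, ho, hzo⟩ := hhm
    exact ⟨o, (hOv₂ o).mpr ho, hzo⟩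
  refine tw.t4_core (t4c_Mbar1_le tw P₁ hB₁ hOv₁ hqres ?_) (t4c_Mbar2_le tw P₂ hB₂ hOv₂ hqres ?_)
  · intro t ht htz
    rw [hy] at htz
    exact C₁.glue he hqq hinj hq0 hmF hz0 hz₁ hh0 hh₁ ht htz
  · intro t ht htz
    rw [hy] at htz
    exact C₂.glue he hqq hinj hq0 hmF hz0 hz₂ hh0 hh₂ ht htz

end Fermat.Agent.T4
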