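/-
T4E-L (helper5): **the correcting element `h` of step C** (field `hh` of `T4eCChart`) for a labelled
family of vertical valuation rings, from strong approximation (`Approx.lean`).

* `t4eXi_mem` : `t4eXi` stays in any subgroup containing the constants;
* `T4Pres.t4eCongrUnits q m` : the units `u` of `B` with `u ^ m ≡ 1` modulo `q · Ov`;
* `T4Pres.t4eXiV_coe` : the value in `F` of `t4eXiV` only depends on the values in `F` of the
  constants (so that the same `h` serves on both charts);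
* **`T4Pres.t4e_exists_hh`** : if the vertical valuation rings of `P` are exactly `Vw 0, …, Vw e`
  and the constants `A j`, `B j` satisfy `u ^ m ≡ 1` modulo `q · Ov`, there is `h ≠ 0` with
  `h ^ m ≡ 1` modulo `q · Ov` and `h ≡ t4eXiV` on every vertical valuation ring.
-/
import Fermat.Agent.Lib.T4E.Local.Chart
import Fermat.Agent.Lib.T4E.Local.Approx

set_option autoImplicit false
set_option linter.style.haveILetI false

namespace Fermat.Agent.T4

/-- `t4eXi` stays in any subgroup containing the constants -/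
theorem t4eXi_mem {M : Type*} [CommGroup M] (H : Subgroup M) (e q : ℕ) {A B : ℕ → M}
    (hA : ∀ j, A j ∈ H) (hB : ∀ j, B j ∈ H) (w : ℕ) : t4eXi e q A B w ∈ H := by
  unfold t4eXi
  split_ifs
  · exact H.pow_mem (H.inv_mem (hA w)) q
  · exact H.mul_mem (H.mul_mem (H.pow_mem (hB 0) q)
      (H.mul_mem (H.inv_mem (hA 0)) (H.pow_mem (H.inv_mem (hA 1)) _)))
      (H.pow_mem (H.inv_mem (hB _)) q)

variable {F : Type*} [Field F]

namespace T4Pres

variable (P : T4Pres F)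

/-- the units `u` of `B` with `u ^ m ≡ 1` modulo `q · Ov` -/
def t4eCongrUnits (q : F) (m : ℕ) : Subgroup (P.B)ˣ where
  carrier := {u | P.CongrOv q (((u : P.B) : F) ^ m) 1}
  one_mem' := ⟨0, (P.ov q).zero_mem, by simp⟩
  mul_mem' := by
    rintro u v ⟨o, ho, e⟩ ⟨o', ho', e'⟩
    refine ⟨((u : P.B) : F) ^ m * o' + o,
      (P.ov q).add_mem ((P.ov q).mul_mem (pow_mem (P.B_le_ov q (u : P.B).2) m) ho') ho, ?_⟩
    have h1 : (((u * v : (P.B)ˣ) : P.B) : F) = ((u : P.B) : F) * ((v : P.B) : F) := by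
      push_cast; rfl
    rw [h1, mul_pow, mul_add, mul_left_comm, ← e, ← e']
    ring
  inv_mem' := by
    rintro u ⟨o, ho, e⟩
    refine ⟨-((((u⁻¹ : (P.B)ˣ) : P.B) : F) ^ m * o),
      (P.ov q).neg_mem ((P.ov q).mul_mem
        (pow_mem (P.B_le_ov q ((u⁻¹ : (P.B)ˣ) : P.B).2) m) ho), ?_⟩
    have h1 : (((u⁻¹ : (P.B)ˣ) : P.B) : F) * ((u : P.B) : F) = 1 := by
      have h0 : (((u⁻¹ : (P.B)ˣ) : P.B) * (u : P.B) : P.B) = 1 := u.inv_mul
      have := congrArg (fun x : P.B => (x : F)) h0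
      exact this
    have h2 : (((u⁻¹ : (P.B)ˣ) : P.B) : F) ^ m * ((u : P.B) : F) ^ m = 1 := by
      rw [← mul_pow, h1, one_pow]
    have h3 : q * -((((u⁻¹ : (P.B)ˣ) : P.B) : F) ^ m * o) =
        -((((u⁻¹ : (P.B)ˣ) : P.B) : F) ^ m * (q * o)) := by ring
    rw [h3, ← e, mul_sub, h2]
    ring

theorem mem_t4eCongrUnits {q : F} {m : ℕ} {u : (P.B)ˣ} :
    u ∈ P.t4eCongrUnits q m ↔ P.CongrOv q (((u : P.B) : F) ^ m) 1 := Iff.rfl

/-- the value in `F` of `t4eXi` computed in the units of `B` -/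
theorem t4eXi_coe (e q : ℕ) (A B : ℕ → (P.B)ˣ) (w : ℕ) :
    (((t4eXi e q A B w : (P.B)ˣ) : P.B) : F) =
      ((t4eXi e q (fun j => Units.map (P.B.subtype : P.B →* F) (A j))
        (fun j => Units.map (P.B.subtype : P.B →* F) (B j)) w : Fˣ) : F) := by
  have := t4eXi_map (M := (P.B)ˣ) (M' := Fˣ) (Units.map (P.B.subtype : P.B →* F)) e q A B w
  rw [← this]
  rfl

/-- the value in `F` of `t4eXiV` only depends on the values in `F` of the constants -/
theorem t4eXiV_coe {Vw : ℕ → ValuationSubring F} {e : ℕ}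
    (hinj : ∀ i j, i ≤ e → j ≤ e → Vw i = Vw j → i = j) (q : ℕ) (A B : ℕ → (P.B)ˣ) {w : ℕ}
    (hw : w ≤ e) :
    ((P.t4eXiV Vw e q A B (Vw w) : P.B) : F) =
      ((t4eXi e q (fun j => Units.map (P.B.subtype : P.B →* F) (A j))
        (fun j => Units.map (P.B.subtype : P.B →* F) (B j)) w : Fˣ) : F) := by
  rw [P.t4eXiV_eq hinj q A B hw, P.t4eXi_coe]

/-- **the correcting element of step C** for the labelled family `Vw 0, …, Vw e` -/
theorem t4e_exists_hh {q : F} (hq0 : q ≠ 0) {e : ℕ} {Vw : ℕ → ValuationSubring F}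
    (hinj : ∀ i j, i ≤ e → j ≤ e → Vw i = Vw j → i = j)
    (hvert : ∀ V ∈ P.vert q, ∃ w, w ≤ e ∧ V = Vw w) (hmem : ∀ w, w ≤ e → Vw w ∈ P.vert q)
    (qq : ℕ) (A B : ℕ → (P.B)ˣ) {m : ℕ} (hm : m ≠ 0)
    (hA : ∀ j, P.CongrOv q (((A j : P.B) : F) ^ m) 1)
    (hB : ∀ j, P.CongrOv q (((B j : P.B) : F) ^ m) 1) :
    ∃ h : F, h ≠ 0 ∧ P.CongrOv q (h ^ m) 1 ∧
      ∀ V ∈ P.vert q, V.valuation (h - (P.t4eXiV Vw e qq A B V : F)) < 1 := by
  have hξ : ∀ w, t4eXi e qq A B w ∈ P.t4eCongrUnits q m :=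
    fun w => t4eXi_mem _ e qq hA hB w
  obtain ⟨h, hh0, -, -, hlt, o, ho, hpow⟩ := t4e_exists_corr (Finset.range (e + 1))
    ⟨0, Finset.mem_range.mpr (Nat.succ_pos e)⟩ Vw
    (fun w hw => P.dvr _ (hmem w (Nat.lt_succ_iff.mp (Finset.mem_range.mp hw))).1)
    (fun i hi j hj hij => hinj i j (Nat.lt_succ_iff.mp (Finset.mem_range.mp hi))
      (Nat.lt_succ_iff.mp (Finset.mem_range.mp hj)) hij)
    (fun w => (((t4eXi e qq A B w : (P.B)ˣ) : P.B) : F))
    (fun w hw => P.B_le (hmem w (Nat.lt_succ_iff.mp (Finset.mem_range.mp hw))).1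
      ((t4eXi e qq A B w : (P.B)ˣ) : P.B).2) hq0
    (fun w hw => (hmem w (Nat.lt_succ_iff.mp (Finset.mem_range.mp hw))).2) hm
    (fun w hw => by
      obtain ⟨o, ho, e1⟩ := hξ w
      exact ⟨o, ho _ (hmem w (Nat.lt_succ_iff.mp (Finset.mem_range.mp hw))), e1⟩)
  refine ⟨h, hh0, ⟨o, fun V hV => ?_, hpow⟩, fun V hV => ?_⟩
  · obtain ⟨w, hw, rfl⟩ := hvert V hV
    exact ho w (Finset.mem_range.mpr (Nat.lt_succ_iff.mpr hw))
  · obtain ⟨w, hw, rfl⟩ := hvert V hV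
    rw [P.t4eXiV_eq hinj qq A B hw]
    exact hlt w (Finset.mem_range.mpr (Nat.lt_succ_iff.mpr hw))

end T4Pres

end Fermat.Agent.T4
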