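/-
T4E-L (helper5): **the relation algebra of step C at a supersingular point of level `q ^ e`,
`e ≥ 3`**.

Labels: the `e + 1` vertical branches through a supersingular point are `V_w`, `w = 0, …, e`
(`w = a` = number of Frobenius steps, `b = e - w`); the `e` branches of level `q ^ (e - 1)` are
`V'_j`, `j = 0, …, e - 1`.  Fibres of the two degeneracy maps:
  `α⁻¹ V'_j = {V_j}` for `j + 2 ≤ e`,   `α⁻¹ V'_{e-1} = {V_{e-1}, V_e}`;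
  `β⁻¹ V'_j = {V_{j+1}}` for `1 ≤ j`,   `β⁻¹ V'_0 = {V_0, V_1}`.
The norm relations for the branch values `κ_w` of a local generator (constants `A_j`, `B_j`):
  (α)  `κ_j ^ q * A_j = κ_e * κ_{e-1} ^ (q - 1) * A_{e-1}`     (`j + 2 ≤ e`),
  (β)  `κ_{j+1} ^ q * B_j = κ_0 * κ_1 ^ (q - 1) * B_0`         (`1 ≤ j`, `j + 1 ≤ e`).
For `e ≥ 3` every `w` satisfies `w + 2 ≤ e` or `2 ≤ w`, and the relations give
  `κ_w ^ (q * q) = X ^ q * t_w`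
with `X = κ_e * κ_{e-1} ^ (q - 1) * A_{e-1}` and point-independent constants `t_w` (`t4eXi`):
the exponent `q * q` is prime to `m`, so no torsion is lost (unlike `e = 2`).
-/
import Mathlib

set_option autoImplicit false

namespace Fermat.Agent.T4

/-- the constants `t_w`: `κ_w ^ (q * q) = X ^ q * t_w` -/
def t4eXi {M : Type*} [CommGroup M] (e q : ℕ) (A B : ℕ → M) (w : ℕ) : M :=
  if w + 2 ≤ e then (A w)⁻¹ ^ q
  else B 0 ^ q * ((A 0)⁻¹ * (A 1)⁻¹ ^ (q - 1)) * (B (w - 1))⁻¹ ^ q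

theorem t4eXi_low {M : Type*} [CommGroup M] {e q : ℕ} (A B : ℕ → M) {w : ℕ} (hw : w + 2 ≤ e) :
    t4eXi e q A B w = (A w)⁻¹ ^ q := by
  rw [t4eXi, if_pos hw]

theorem t4eXi_high {M : Type*} [CommGroup M] {e q : ℕ} (A B : ℕ → M) {w : ℕ} (hw : ¬ w + 2 ≤ e) :
    t4eXi e q A B w = B 0 ^ q * ((A 0)⁻¹ * (A 1)⁻¹ ^ (q - 1)) * (B (w - 1))⁻¹ ^ q := by
  rw [t4eXi, if_neg hw]

/-- **the relation algebra** (`e ≥ 3`): all `κ_w ^ (q * q)` are `X ^ q` times the constants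
`t4eXi` -/
theorem t4e_kappa_pow {R : Type*} [CommRing R] {e q : ℕ} (he : 3 ≤ e) (hq : 0 < q)
    (κ : ℕ → R) (A B : ℕ → Rˣ)
    (hα : ∀ j, j + 2 ≤ e →
      κ j ^ q * (A j : R) = κ e * κ (e - 1) ^ (q - 1) * (A (e - 1) : R))
    (hβ : ∀ j, 1 ≤ j → j + 1 ≤ e →
      κ (j + 1) ^ q * (B j : R) = κ 0 * κ 1 ^ (q - 1) * (B 0 : R))
    {w : ℕ} (hw : w ≤ e) :
    κ w ^ (q * q) =
      (κ e * κ (e - 1) ^ (q - 1) * (A (e - 1) : R)) ^ q * ((t4eXi e q A B w : Rˣ) : R) := by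
  set X : R := κ e * κ (e - 1) ^ (q - 1) * (A (e - 1) : R) with hX
  set Y : R := κ 0 * κ 1 ^ (q - 1) * (B 0 : R) with hY
  -- (1) `κ_j ^ q = X * A_j⁻¹`
  have h1 : ∀ j, j + 2 ≤ e → κ j ^ q = X * ((A j)⁻¹ : Rˣ) := by
    intro j hj
    have := hα j hj
    calc κ j ^ q = κ j ^ q * (A j : R) * ((A j)⁻¹ : Rˣ) := by
          rw [mul_assoc, Units.mul_inv, mul_one]
      _ = X * ((A j)⁻¹ : Rˣ) := by rw [this]
  -- (2) `κ_w ^ q = Y * B_{w-1}⁻¹` for `2 ≤ w`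
  have h2 : ∀ w, 2 ≤ w → w ≤ e → κ w ^ q = Y * ((B (w - 1))⁻¹ : Rˣ) := by
    intro w hw2 hwe
    have h := hβ (w - 1) (by omega) (by omega)
    have hw1 : w - 1 + 1 = w := by omega
    rw [hw1] at h
    calc κ w ^ q = κ w ^ q * (B (w - 1) : R) * ((B (w - 1))⁻¹ : Rˣ) := by
          rw [mul_assoc, Units.mul_inv, mul_one]
      _ = Y * ((B (w - 1))⁻¹ : Rˣ) := by rw [h]
  -- `Y ^ q` in terms of `X ^ q`
  have hq1 : q - 1 + 1 = q := Nat.sub_add_cancel hq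
  have hYq : Y ^ q = X ^ q * (((A 0)⁻¹ * (A 1)⁻¹ ^ (q - 1) * B 0 ^ q : Rˣ) : R) := by
    have e0 := h1 0 (by omega)
    have e1 := h1 1 (by omega)
    calc Y ^ q = κ 0 ^ q * (κ 1 ^ q) ^ (q - 1) * (B 0 : R) ^ q := by
          rw [hY, mul_pow, mul_pow, ← pow_mul, ← pow_mul, mul_comm (q - 1) q]
      _ = X * ((A 0)⁻¹ : Rˣ) * (X * ((A 1)⁻¹ : Rˣ)) ^ (q - 1) * (B 0 : R) ^ q := by rw [e0, e1]
      _ = X ^ (q - 1 + 1) * (((A 0)⁻¹ : Rˣ) * (((A 1)⁻¹ : Rˣ) : R) ^ (q - 1) * (B 0 : R) ^ q) := by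
          rw [mul_pow, pow_succ]; ring
      _ = X ^ q * (((A 0)⁻¹ * (A 1)⁻¹ ^ (q - 1) * B 0 ^ q : Rˣ) : R) := by
          rw [hq1]; push_cast; ring
  by_cases hlow : w + 2 ≤ e
  · rw [t4eXi_low A B hlow, pow_mul, h1 w hlow, mul_pow]
    push_cast
    ring
  · have hw2 : 2 ≤ w := by omega
    rw [t4eXi_high A B hlow, pow_mul, h2 w hw2 hw, mul_pow, hYq]
    push_cast
    ring

/-- the ratio form consumed by `T4Pres.glue_hyp_of_ratio` -/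
theorem t4e_ratio_of_relations {R : Type*} [CommRing R] {e q : ℕ} (he : 3 ≤ e) (hq : 0 < q)
    (κ : ℕ → R) (A B : ℕ → Rˣ)
    (hα : ∀ j, j + 2 ≤ e →
      κ j ^ q * (A j : R) = κ e * κ (e - 1) ^ (q - 1) * (A (e - 1) : R))
    (hβ : ∀ j, 1 ≤ j → j + 1 ≤ e →
      κ (j + 1) ^ q * (B j : R) = κ 0 * κ 1 ^ (q - 1) * (B 0 : R))
    {w w' : ℕ} (hw : w ≤ e) (hw' : w' ≤ e) :
    κ w ^ (q * q) * ((t4eXi e q A B w' : Rˣ) : R) =
      κ w' ^ (q * q) * ((t4eXi e q A B w : Rˣ) : R) := by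
  rw [t4e_kappa_pow he hq κ A B hα hβ hw, t4e_kappa_pow he hq κ A B hα hβ hw']
  ring

end Fermat.Agent.T4
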