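/-
T4E-L (helper5): **step C at a point and in global form for a LABELLED family of vertical
branches** `Vw 0, …, Vw e` (`e ≥ 3`), from the triangular norm relations of `Lib/T4E/Local/Ratio`.

* `T4Pres.t4e_glue_ratio` : the level-agnostic global form — regular points, smooth vertical
  branches, a Kummer element `z ≡ 1 mod q`; if at every point of the special fibre the `E`-th powers
  of the branch values of every local generator are proportional to point-independent constants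
  `ξ V` and `h ≡ ξ V` on the verticals, `h ^ m ≡ 1`, then every `t ∈ Ov` with
  `t ^ m * (z ^ E * h ^ m) ∈ B` lies in `B + q · Ov`.
* `T4Pres.t4eXiV` : the constants `ξ V` of the labelled family (units `A j`, `B j` of `B`).
* `T4Pres.t4e_glue_hyp_of_relations` : step C at a point (ALL-OR-ONE + relations (α), (β)).
* `T4Pres.t4e_glue_stepC` : the global form with `E = q * q`.
-/
import Fermat.Agent.Lib.T4.Local.Ratio
import Fermat.Agent.Lib.T4E.Local.Ratio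

set_option autoImplicit false
set_option linter.style.haveILetI false

namespace Fermat.Agent.T4

/-- `t4eXi` commutes with group homomorphisms -/
theorem t4eXi_map {M M' : Type*} [CommGroup M] [CommGroup M'] (f : M →* M') (e q : ℕ)
    (A B : ℕ → M) (w : ℕ) :
    f (t4eXi e q A B w) = t4eXi e q (fun j => f (A j)) (fun j => f (B j)) w := by
  unfold t4eXi
  split_ifs <;> simp only [map_mul, map_pow, map_inv]

variable {F : Type*} [Field F]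

namespace T4Pres

variable (P : T4Pres F)

/-- **the level-agnostic global form of step C** -/
theorem t4e_glue_ratio [IsNoetherianRing P.B] {q : F} (hq : q ∈ P.B) (hq0 : q ≠ 0) {m : ℕ}
    (hm : (m : F)⁻¹ ∈ P.B) (hmF : (m : F) ≠ 0) {z : F} (hz0 : z ≠ 0) (hz : P.CongrOv q z 1)
    (hreg : ∀ 𝔫 : Ideal P.B, 𝔫.IsMaximal → (⟨q, hq⟩ : P.B) ∈ 𝔫 → P.RegAt 𝔫)
    (hsm : ∀ 𝔫 : Ideal P.B, 𝔫.IsMaximal → (⟨q, hq⟩ : P.B) ∈ 𝔫 →
      ∀ (V : ValuationSubring F) (hV : V ∈ P.through 𝔫), V ∈ P.vert q → P.SmoothAt 𝔫 V hV)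
    (hroot : ∀ V ∈ P.vals, V ∉ P.vert q → ∃ t : F, V.valuation (t ^ m * z) = 1)
    {E : ℕ} (ξ : ValuationSubring F → P.B)
    (hξ : ∀ 𝔫 : Ideal P.B, 𝔫.IsMaximal → ∀ V : ValuationSubring F, ξ V ∉ 𝔫)
    (hratio : ∀ 𝔫 : Ideal P.B, 𝔫.IsMaximal → (⟨q, hq⟩ : P.B) ∈ 𝔫 → ∀ s : F,
      (∀ V ∈ P.through 𝔫, V.valuation (s ^ m * z) = 1) →
      ∀ V ∈ P.through 𝔫, V ∈ P.vert q → ∀ W ∈ P.through 𝔫, W ∈ P.vert q →
        ∀ κ κ' : P.B ⧸ 𝔫, P.BranchVal 𝔫 V s κ → P.BranchVal 𝔫 W s κ' → κ ≠ 0 → κ' ≠ 0 →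
          κ ^ E * Ideal.Quotient.mk 𝔫 (ξ W) = κ' ^ E * Ideal.Quotient.mk 𝔫 (ξ V))
    {h : F} (hh0 : h ≠ 0) (hh : ∀ V ∈ P.vert q, V.valuation (h - (ξ V : F)) < 1)
    (hhm : P.CongrOv q (h ^ m) 1)
    {t : F} (ht : t ∈ P.ov q) (htz : t ^ m * (z ^ E * h ^ m) ∈ P.B) :
    ∃ b' ∈ P.B, P.CongrOv q t b' := by
  have hmne : m ≠ 0 := by
    rintro rfl
    exact hmF (by simp)
  refine P.glue hq hq0 hm hmF (P.congrOv_pow_mul (P.B_le_ov q hq) hz hhm _) ?_ ht htz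
  intro 𝔫 h𝔫 hq𝔫
  haveI := h𝔫
  haveI := h𝔫.isPrime
  obtain ⟨s, u, _, _, _, hs, hκ⟩ := P.exists_datum 𝔫 (hreg 𝔫 h𝔫 hq𝔫) hmne hz0 hz
    (fun V hV hv => hroot V hV.1 hv) (hsm 𝔫 h𝔫 hq𝔫)
  have hκ' : ∀ V ∈ P.through 𝔫, V ∈ P.vert q →
      ∃ κ : P.B ⧸ 𝔫, κ ≠ 0 ∧ P.BranchVal 𝔫 V s κ := by
    intro V hV hv
    obtain ⟨κ, hκ0, hκV, _⟩ := hκ V hV hv
    exact ⟨κ, hκ0, hκV⟩
  refine P.glue_hyp_of_ratio hh0 ξ (fun V _ _ => hξ 𝔫 h𝔫 V) (fun V _ hv => hh V hv) hs hκ' ?_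
  intro V hV hv W hW hw κ κ' hκV hκW
  obtain ⟨κ1, hκ10, hκ1V⟩ := hκ' V hV hv
  obtain ⟨κ2, hκ20, hκ2W⟩ := hκ' W hW hw
  rw [BranchVal.unique P hV hκV hκ1V, BranchVal.unique P hW hκW hκ2W]
  exact hratio 𝔫 h𝔫 hq𝔫 s hs V hV hv W hW hw κ1 κ2 hκ1V hκ2W hκ10 hκ20

open Classical in
/-- the constants `ξ V` of the labelled family `Vw 0, …, Vw e` -/
noncomputable def t4eXiV (Vw : ℕ → ValuationSubring F) (e q : ℕ) (A B : ℕ → (P.B)ˣ)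
    (V : ValuationSubring F) : P.B :=
  if h : ∃ w, w ≤ e ∧ V = Vw w then ((t4eXi e q A B (Nat.find h) : (P.B)ˣ) : P.B) else 1

theorem t4eXiV_eq {Vw : ℕ → ValuationSubring F} {e : ℕ}
    (hinj : ∀ i j, i ≤ e → j ≤ e → Vw i = Vw j → i = j) (q : ℕ) (A B : ℕ → (P.B)ˣ) {w : ℕ}
    (hw : w ≤ e) : P.t4eXiV Vw e q A B (Vw w) = ((t4eXi e q A B w : (P.B)ˣ) : P.B) := by
  classical
  have h : ∃ w', w' ≤ e ∧ Vw w = Vw w' := ⟨w, hw, rfl⟩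
  rw [t4eXiV, dif_pos h]
  have h1 := Nat.find_spec h
  rw [← hinj w (Nat.find h) hw h1.1 h1.2]

theorem t4eXiV_isUnit (Vw : ℕ → ValuationSubring F) (e q : ℕ) (A B : ℕ → (P.B)ˣ)
    (V : ValuationSubring F) : IsUnit (P.t4eXiV Vw e q A B V) := by
  classical
  unfold t4eXiV
  split_ifs
  · exact Units.isUnit _
  · exact isUnit_one

theorem t4eXiV_not_mem (Vw : ℕ → ValuationSubring F) (e q : ℕ) (A B : ℕ → (P.B)ˣ)
    {𝔫 : Ideal P.B} (h𝔫 : 𝔫 ≠ ⊤) (V : ValuationSubring F) : P.t4eXiV Vw e q A B V ∉ 𝔫 :=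
  fun hmem => h𝔫 (Ideal.eq_top_of_isUnit_mem _ hmem (P.t4eXiV_isUnit Vw e q A B V))

/-- **step C at a point, labelled family** (`e ≥ 3`): `s` a local generator of `z` at `𝔫` with
non-zero branch values on all vertical branches.  Either at most one vertical branch passes through
`𝔫`, or exactly the branches `Vw 0, …, Vw e` do and the relations (α), (β) hold.  If `h ≡ ξ_V` on
the vertical branches, then the hypothesis of `T4Pres.glue` holds at `𝔫` for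
`z ^ (q * q) * h ^ m`. -/
theorem t4e_glue_hyp_of_relations {𝔫 : Ideal P.B} [h𝔫 : 𝔫.IsMaximal] {q : F} {m qq e : ℕ}
    (he : 3 ≤ e) (hqq : 0 < qq) {z s h : F} (hh0 : h ≠ 0) {Vw : ℕ → ValuationSubring F}
    (hinj : ∀ i j, i ≤ e → j ≤ e → Vw i = Vw j → i = j) (A B : ℕ → (P.B)ˣ)
    (hs : ∀ V ∈ P.through 𝔫, V.valuation (s ^ m * z) = 1)
    (hκ : ∀ V ∈ P.through 𝔫, V ∈ P.vert q → ∃ κ : P.B ⧸ 𝔫, κ ≠ 0 ∧ P.BranchVal 𝔫 V s κ)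
    (hcase : (∀ V ∈ P.through 𝔫, V ∈ P.vert q → ∀ W ∈ P.through 𝔫, W ∈ P.vert q → V = W) ∨
      ((∀ V ∈ P.through 𝔫, V ∈ P.vert q → ∃ w, w ≤ e ∧ V = Vw w) ∧
        (∀ w, w ≤ e → Vw w ∈ P.through 𝔫 ∧ Vw w ∈ P.vert q) ∧
        ∀ κ : ℕ → P.B ⧸ 𝔫, (∀ w, w ≤ e → P.BranchVal 𝔫 (Vw w) s (κ w)) →
          (∀ w, w ≤ e → κ w ≠ 0) →
          (∀ j, j + 2 ≤ e → κ j ^ qq * Ideal.Quotient.mk 𝔫 (A j : P.B) =
            κ e * κ (e - 1) ^ (qq - 1) * Ideal.Quotient.mk 𝔫 (A (e - 1) : P.B)) ∧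
          (∀ j, 1 ≤ j → j + 1 ≤ e → κ (j + 1) ^ qq * Ideal.Quotient.mk 𝔫 (B j : P.B) =
            κ 0 * κ 1 ^ (qq - 1) * Ideal.Quotient.mk 𝔫 (B 0 : P.B))))
    (hh : ∀ V ∈ P.through 𝔫, V ∈ P.vert q →
      V.valuation (h - (P.t4eXiV Vw e qq A B V : F)) < 1) :
    ∃ s' : F, (∀ V ∈ P.through 𝔫, V.valuation (s' ^ m * (z ^ (qq * qq) * h ^ m)) = 1) ∧
      ∃ κ : P.B ⧸ 𝔫, κ ≠ 0 ∧ ∀ V ∈ P.through 𝔫, V ∈ P.vert q → P.BranchVal 𝔫 V s' κ := by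
  classical
  haveI := h𝔫.isPrime
  refine P.glue_hyp_of_ratio hh0 (P.t4eXiV Vw e qq A B)
    (fun V _ _ => P.t4eXiV_not_mem Vw e qq A B h𝔫.ne_top V) hh hs hκ ?_
  intro V hV hv W hW hw κ κ' hκV hκW
  rcases hcase with hone | ⟨hall, hthr, hrel⟩
  · obtain rfl := hone V hV hv W hW hw
    rw [BranchVal.unique P hV hκV hκW]
  · -- the branch values as a function of the label
    have hex : ∀ w, w ≤ e → ∃ κ : P.B ⧸ 𝔫, κ ≠ 0 ∧ P.BranchVal 𝔫 (Vw w) s κ :=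
      fun w hw => hκ (Vw w) (hthr w hw).1 (hthr w hw).2
    let κf : ℕ → P.B ⧸ 𝔫 := fun w => if hw : w ≤ e then Classical.choose (hex w hw) else 1
    have hκf : ∀ w, w ≤ e → κf w ≠ 0 ∧ P.BranchVal 𝔫 (Vw w) s (κf w) := by
      intro w hw
      have := Classical.choose_spec (hex w hw)
      simp only [κf, dif_pos hw]
      exact this
    obtain ⟨rα, rβ⟩ := hrel κf (fun w hw => (hκf w hw).2) (fun w hw => (hκf w hw).1)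
    obtain ⟨w, hwe, rfl⟩ := hall V hV hv
    obtain ⟨w', hwe', rfl⟩ := hall W hW hw
    rw [BranchVal.unique P hV hκV (hκf w hwe).2, BranchVal.unique P hW hκW (hκf w' hwe').2,
      P.t4eXiV_eq hinj qq A B hwe, P.t4eXiV_eq hinj qq A B hwe']
    -- transport the constants to units of the residue field
    let φ : (P.B)ˣ →* (P.B ⧸ 𝔫)ˣ := Units.map (Ideal.Quotient.mk 𝔫 : P.B →* P.B ⧸ 𝔫)
    have hφ : ∀ u : (P.B)ˣ, ((φ u : (P.B ⧸ 𝔫)ˣ) : P.B ⧸ 𝔫) = Ideal.Quotient.mk 𝔫 (u : P.B) :=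
      fun u => rfl
    have key := t4e_ratio_of_relations (R := P.B ⧸ 𝔫) he hqq κf (fun j => φ (A j))
      (fun j => φ (B j)) (fun j hj => by simpa only [hφ] using rα j hj)
      (fun j hj1 hj => by simpa only [hφ] using rβ j hj1 hj) hwe hwe'
    have e1 := t4eXi_map (M := (P.B)ˣ) (M' := (P.B ⧸ 𝔫)ˣ) φ e qq A B w
    have e2 := t4eXi_map (M := (P.B)ˣ) (M' := (P.B ⧸ 𝔫)ˣ) φ e qq A B w'
    rw [← e1, ← e2, hφ, hφ] at key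
    exact key

/-- **step C, global form, labelled family** (`e ≥ 3`): regular points with smooth vertical
branches, a Kummer element `z ≡ 1 mod q`, ALL-OR-ONE and the relations (α), (β) at the points of the
special fibre (for every local generator), and a correcting element `h ≡ ξ_V` on the vertical
branches with `h ^ m ≡ 1 mod q`.  Then every `t ∈ Ov` with `t ^ m * z' ∈ B`,
`z' = z ^ (q * q) * h ^ m`, lies in `B + q · Ov`. -/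
theorem t4e_glue_stepC [IsNoetherianRing P.B] {q : F} (hq : q ∈ P.B) (hq0 : q ≠ 0) {m : ℕ}
    (hm : (m : F)⁻¹ ∈ P.B) (hmF : (m : F) ≠ 0) {z : F} (hz0 : z ≠ 0) (hz : P.CongrOv q z 1)
    (hreg : ∀ 𝔫 : Ideal P.B, 𝔫.IsMaximal → (⟨q, hq⟩ : P.B) ∈ 𝔫 → P.RegAt 𝔫)
    (hsm : ∀ 𝔫 : Ideal P.B, 𝔫.IsMaximal → (⟨q, hq⟩ : P.B) ∈ 𝔫 →
      ∀ (V : ValuationSubring F) (hV : V ∈ P.through 𝔫), V ∈ P.vert q → P.SmoothAt 𝔫 V hV)
    (hroot : ∀ V ∈ P.vals, V ∉ P.vert q → ∃ t : F, V.valuation (t ^ m * z) = 1)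
    {qq e : ℕ} (he : 3 ≤ e) (hqq : 0 < qq) {Vw : ℕ → ValuationSubring F}
    (hinj : ∀ i j, i ≤ e → j ≤ e → Vw i = Vw j → i = j) (A B : ℕ → (P.B)ˣ)
    (hcase : ∀ 𝔫 : Ideal P.B, 𝔫.IsMaximal → (⟨q, hq⟩ : P.B) ∈ 𝔫 → ∀ s : F,
      (∀ V ∈ P.through 𝔫, V.valuation (s ^ m * z) = 1) →
      (∀ V ∈ P.through 𝔫, V ∈ P.vert q → ∀ W ∈ P.through 𝔫, W ∈ P.vert q → V = W) ∨
      ((∀ V ∈ P.through 𝔫, V ∈ P.vert q → ∃ w, w ≤ e ∧ V = Vw w) ∧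
        (∀ w, w ≤ e → Vw w ∈ P.through 𝔫 ∧ Vw w ∈ P.vert q) ∧
        ∀ κ : ℕ → P.B ⧸ 𝔫, (∀ w, w ≤ e → P.BranchVal 𝔫 (Vw w) s (κ w)) →
          (∀ w, w ≤ e → κ w ≠ 0) →
          (∀ j, j + 2 ≤ e → κ j ^ qq * Ideal.Quotient.mk 𝔫 (A j : P.B) =
            κ e * κ (e - 1) ^ (qq - 1) * Ideal.Quotient.mk 𝔫 (A (e - 1) : P.B)) ∧
          (∀ j, 1 ≤ j → j + 1 ≤ e → κ (j + 1) ^ qq * Ideal.Quotient.mk 𝔫 (B j : P.B) =
            κ 0 * κ 1 ^ (qq - 1) * Ideal.Quotient.mk 𝔫 (B 0 : P.B))))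
    {h : F} (hh0 : h ≠ 0)
    (hh : ∀ V ∈ P.vert q, V.valuation (h - (P.t4eXiV Vw e qq A B V : F)) < 1)
    (hhm : P.CongrOv q (h ^ m) 1)
    {t : F} (ht : t ∈ P.ov q) (htz : t ^ m * (z ^ (qq * qq) * h ^ m) ∈ P.B) :
    ∃ b' ∈ P.B, P.CongrOv q t b' := by
  have hmne : m ≠ 0 := by
    rintro rfl
    exact hmF (by simp)
  refine P.glue hq hq0 hm hmF (P.congrOv_pow_mul (P.B_le_ov q hq) hz hhm _) ?_ ht htz
  intro 𝔫 h𝔫 hq𝔫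
  haveI := h𝔫
  obtain ⟨s, u, _, _, _, hs, hκ⟩ := P.exists_datum 𝔫 (hreg 𝔫 h𝔫 hq𝔫) hmne hz0 hz
    (fun V hV hv => hroot V hV.1 hv) (hsm 𝔫 h𝔫 hq𝔫)
  have hκ' : ∀ V ∈ P.through 𝔫, V ∈ P.vert q →
      ∃ κ : P.B ⧸ 𝔫, κ ≠ 0 ∧ P.BranchVal 𝔫 V s κ := by
    intro V hV hv
    obtain ⟨κ, hκ0, hκV, _⟩ := hκ V hV hv
    exact ⟨κ, hκ0, hκV⟩
  exact P.t4e_glue_hyp_of_relations he hqq hh0 hinj A B hs hκ' (hcase 𝔫 h𝔫 hq𝔫 s hs)
    (fun V _ hv => hh V hv)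

end T4Pres

end Fermat.Agent.T4
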